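import Fermat.Agent.FlatLocal.Bound.Common

/-!
# The tangent bound in the ordinary case

`r` is upper triangular, `ω` on the line and trivial on the quotient on inertia: coboundaries
and triangular classes span at most four dimensions.
-/

set_option autoImplicit false

noncomputable section

namespace Fermat.Agent.FlatLocal

variable {p : ℕ} [Fact p.Prime] {e : ℕ}
variable {k : Type} [Field k] [CharP k p]

namespace Bound

/-- Upper triangular tangent cocycles with diagonal trivial on inertia. -/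
def triangularSpace (D : TameField p e) (r : Gp p →* Matrix (Fin 2) (Fin 2) k) :
    Submodule k (Gp p → Matrix (Fin 2) (Fin 2) k) where
  carrier := {Z | Z ∈ tangentSpace D r ∧ (∀ σ, Z σ 1 0 = 0) ∧ ∀ σ, IsInertia σ → Z σ 0 0 = 0}
  zero_mem' := ⟨zero_mem _, fun _ => rfl, fun _ _ => rfl⟩
  add_mem' {Y Z} hY hZ := ⟨add_mem hY.1 hZ.1,
    fun σ => by simp [hY.2.1 σ, hZ.2.1 σ],
    fun σ h => by simp [hY.2.2 σ h, hZ.2.2 σ h]⟩
  smul_mem' c Z hZ := ⟨Submodule.smul_mem _ c hZ.1,
    fun σ => by simp [hZ.2.1 σ], fun σ h => by simp [hZ.2.2 σ h]⟩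

section Upper

omit [CharP k p]

variable {r : Gp p →* Matrix (Fin 2) (Fin 2) k} (hup : ∀ σ, r σ 1 0 = 0)
include hup

theorem upper_diag_inv (σ : Gp p) :
    r σ 0 0 * r σ⁻¹ 0 0 = 1 ∧ r σ 1 1 * r σ⁻¹ 1 1 = 1 := by
  constructor
  · have h := congrFun (congrFun (r_mul_inv r σ) 0) 0
    simpa [Matrix.mul_apply, Fin.sum_univ_two, hup σ⁻¹] using h
  · have h := congrFun (congrFun (r_mul_inv r σ) 1) 1
    simpa [Matrix.mul_apply, Fin.sum_univ_two, hup σ] using h

theorem adMat_upper_lower {X : Matrix (Fin 2) (Fin 2) k} (hX : X 1 0 = 0) (σ : Gp p) :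
    adMat r σ X 1 0 = 0 ∧ adMat r σ X 0 0 = X 0 0 := by
  obtain ⟨h0, -⟩ := upper_diag_inv hup σ
  constructor
  · simp [adMat_apply, Matrix.mul_apply, Fin.sum_univ_two, hup σ, hup σ⁻¹, hX]
  · simp only [adMat_apply, Matrix.mul_apply, Fin.sum_univ_two, hup σ⁻¹, hX, mul_zero, add_zero]
    rw [mul_right_comm, h0, one_mul]

/-- The character by which the upper-right entry is moved. -/
theorem adMat_corner {X : Matrix (Fin 2) (Fin 2) k} (h10 : X 1 0 = 0) (h00 : X 0 0 = 0)
    (h11 : X 1 1 = 0) (σ : Gp p) :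
    adMat r σ X 0 1 = r σ 0 0 * (r σ 1 1)⁻¹ * X 0 1 := by
  obtain ⟨-, h1⟩ := upper_diag_inv hup σ
  simp only [adMat_apply, Matrix.mul_apply, Fin.sum_univ_two, h10, h00, h11, mul_zero, zero_mul,
    add_zero, zero_add]
  rw [eq_inv_of_mul_eq_one_right h1]
  ring

theorem upper_mul (σ τ : Gp p) :
    r (σ * τ) 0 0 = r σ 0 0 * r τ 0 0 ∧ r (σ * τ) 1 1 = r σ 1 1 * r τ 1 1 := by
  simp [Matrix.mul_apply, Fin.sum_univ_two, hup σ, hup τ]

end Upper

theorem corner_eq_single {X : Matrix (Fin 2) (Fin 2) k} (h10 : X 1 0 = 0) (h00 : X 0 0 = 0)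
    (h11 : X 1 1 = 0) : X = !![0, X 0 1; 0, 0] := by
  ext i j
  fin_cases i <;> fin_cases j <;> simp [h10, h00, h11]

end Bound

open _root_.Fermat.Agent.FlatLocal.Bound in
theorem finrank_span_ordinary_le [Finite k] (hp2 : p ≠ 2) (D : TameField p e) (he : e = p - 1)
    (hD : HasPointProperty D) (r : Gp p →* Matrix (Fin 2) (Fin 2) k)
    (hF : ∀ σ : Gp p, (∀ x ∈ D.F, σ x = x) → r σ = 1)
    (hup : ∀ σ, r σ 1 0 = 0)
    (hquot : ∀ σ, IsInertia σ → r σ 1 1 = 1)
    (hsub : ∀ σ : Gp p, IsInertia σ → ∀ a : ℕ, σ D.zeta = D.zeta ^ a → r σ 0 0 = (a : k)) :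
    FiniteDimensional k
        ↥(Submodule.span k {Z | IsTangent D r Z ∧ IsTriangularClass r Z} ⊔ cobSpace r) ∧
      Module.finrank k
        ↥(Submodule.span k {Z | IsTangent D r Z ∧ IsTriangularClass r Z} ⊔ cobSpace r) ≤ 4 := by
  have hp := (Fact.out : p.Prime)
  have h3 : 3 ≤ p := by have := hp.two_le; omega
  obtain ⟨τ, hτ, hprim⟩ := D.exists_inertia_generator
  obtain ⟨g, hg⟩ := TameField.exists_frobenius (p := p)
  set χ : Gp p → k := fun σ => r σ 0 0 * (r σ 1 1)⁻¹ with hχdef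
  have hχI : ∀ σ : Gp p, IsInertia σ → ∀ a : ℕ, σ D.zeta = D.zeta ^ a → χ σ = (a : k) :=
    fun σ hσ a ha => by rw [hχdef]; simp [hsub σ hσ a ha, hquot σ hσ]
  have hτ1 : χ τ ≠ 1 := by
    obtain ⟨a, -, ha⟩ := Engine.exists_zeta_image D τ
    rw [hχI τ hτ a.val ha]
    intro h1
    have h2 : ((a.val : ℕ) : ZMod p) = ((1 : ℕ) : ZMod p) := by
      rw [ZMod.natCast_eq_natCast_iff, ← CharP.natCast_eq_natCast k p, h1, Nat.cast_one]
    have htop : Engine.top D = 1 := by
      refine Nat.eq_of_mul_eq_mul_right (show 0 < p - 1 by omega) ?_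
      rw [Engine.top_mul, he, one_mul]
    have h4 := Engine.res_xi_pow_top D hτ ha
    rw [htop, pow_one, ← map_natCast (algebraMap (ZMod p) (Engine.Res p)), h2, Nat.cast_one,
      map_one] at h4
    exact (Engine.isPrimitiveRoot_res_xi D hprim).ne_one (by omega) h4
  -- elements of `Gal(C/K)` are unipotent
  have huni : ∀ σ : Gp p, D.FixK σ → r σ 0 0 = 1 ∧ r σ 1 1 = 1 := by
    intro σ hσ
    obtain ⟨σ', hI, hr, -, hK⟩ := exists_inertia_same (fixW_of_fixK hσ) hF
    refine ⟨?_, hr ▸ hquot σ' hI⟩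
    rw [← hr, hsub σ' hI 1 (by rw [pow_one]; exact hK hσ _ D.zeta_mem_K), Nat.cast_one]
  set T := triangularSpace D r
  have hnil : ∀ Z ∈ T, Z g 0 0 = 0 → ∀ σ, Z σ = !![0, Z σ 0 1; 0, 0] := by
    rintro Z ⟨hZ, h10, h00⟩ hg0
    have hadd : ∀ σ σ', Z (σ * σ') 0 0 = Z σ 0 0 + Z σ' 0 0 := fun σ σ' => by
      rw [cocycle' hZ, Matrix.add_apply, (adMat_upper_lower hup (h10 σ') σ).2]
    intro h
    refine corner_eq_single (h10 h) ?_ ?_ <;>
    · obtain ⟨j, hj⟩ := D.exists_pow_fix_W hg h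
      have hW0 : Z ((g ^ j)⁻¹ * h) 0 0 = 0 := by
        obtain ⟨σ', hI, -, hZ', -⟩ := exists_inertia_same hj hF
        rw [← hZ' Z hZ]
        exact h00 σ' hI
      have hpow : ∀ n : ℕ, Z (g ^ n) 0 0 = 0 := by
        intro n
        induction n with
        | zero => rw [pow_zero, cocycle_one hZ]; rfl
        | succ n ih => rw [pow_succ, hadd, ih, hg0, add_zero]
      have hh : Z h 0 0 = 0 := by
        rw [← mul_inv_cancel_left (g ^ j) h, hadd, hpow, hW0, add_zero]
      first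
        | exact hh
        | (have ht := hZ.trace_eq_zero h
           rwa [Matrix.trace_fin_two, hh, zero_add] at ht)
  -- the corner coboundary
  set E₁ : Matrix (Fin 2) (Fin 2) k := !![0, 1; 0, 0] with hE₁
  set E₂ : Matrix (Fin 2) (Fin 2) k := !![0, 0; 1, 0] with hE₂
  -- classes with diagonal zero
  let T₀ : Submodule k (Gp p → Matrix (Fin 2) (Fin 2) k) :=
    T ⊓ LinearMap.ker ((Matrix.entryLinearMap k k (0 : Fin 2) (0 : Fin 2)).comp (LinearMap.proj g))
  have hT₀ : ∀ Z ∈ T₀, IsEigenHom D 1 χ (fun σ => Z σ 0 1) ∧ IsAllowed D (fun σ => Z σ 0 1) := by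
    rintro Z ⟨hZT, hZg⟩
    have hshape := hnil Z hZT hZg
    have hcorner : ∀ σ ρ, adMat r σ (Z ρ) 0 1 = χ σ * Z ρ 0 1 := fun σ ρ =>
      adMat_corner hup (hZT.2.1 ρ) (by rw [hshape ρ]; rfl) (by rw [hshape ρ]; rfl) σ
    have hhom : ∀ σ ρ, D.FixK σ → D.FixK ρ → Z (σ * ρ) 0 1 = Z σ 0 1 + Z ρ 0 1 := fun σ ρ hσ _ => by
      rw [cocycle' hZT.1, Matrix.add_apply, hcorner]
      simp [hχdef, huni σ hσ]
    refine ⟨⟨hhom, fun h _ σ hσ => ?_⟩,
      isAllowed_of_hom hp2 D hD _ hhom fun σ hσ => by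
        rw [hZT.1.eq_zero_of_fix σ hσ]; rfl⟩
    have hK := Engine.fixK_conj D h hσ
    rw [cocycle_conj hZT.1, Matrix.sub_apply, Matrix.add_apply, hcorner, hcorner]
    simp [hχdef, huni _ hK]
  have hdim₀ : FiniteDimensional k T₀ ∧ Module.finrank k T₀ ≤ 2 := by
    obtain ⟨h1, h2⟩ := finrank_le_succ (W := Submodule.span k {adCob r E₁}) (S := T₀)
      fun Y hY Z hZ => by
      obtain ⟨a, b, hab, h⟩ := exists_dependent_of_allowed_one hp2 D he hχI
        (hT₀ Y hY).1 (hT₀ Y hY).2 (hT₀ Z hZ).1 (hT₀ Z hZ).2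
      refine ⟨a, b, hab, ?_⟩
      set U := a • Y + b • Z with hU
      have hUT : U ∈ T₀ := add_mem (Submodule.smul_mem _ a hY) (Submodule.smul_mem _ b hZ)
      have hshape := hnil U hUT.1 hUT.2
      have hUK : ∀ σ, D.FixK σ → U σ = 0 := fun σ hσ => by
        have h01 : U σ 0 1 = 0 := by simpa [hU] using h σ hσ
        rw [hshape σ, h01]
        ext i j
        fin_cases i <;> fin_cases j <;> rfl
      have hE : ∀ σ, adMat r σ E₁ = !![0, χ σ; 0, 0] := fun σ => by
        obtain ⟨hl, hd⟩ := adMat_upper_lower hup (X := E₁) rfl σ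
        have h11 : adMat r σ E₁ 1 1 = 0 := by
          have ht := trace_adMat r σ E₁
          have hd' : adMat r σ E₁ 0 0 = 0 := hd.trans rfl
          rw [Matrix.trace_fin_two, hd', zero_add] at ht
          simpa [hE₁, Matrix.trace_fin_two] using ht
        rw [corner_eq_single hl (hd.trans rfl) h11, adMat_corner hup rfl rfl rfl σ]
        simp [hE₁, hχdef]
      set y := U τ 0 1 / (1 - χ τ) with hy
      set V := U - y • adCob r E₁ with hV
      have hcob : IsTangent D r (adCob r E₁) :=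
        isTangent_adCob hF (by simp [hE₁, Matrix.trace_fin_two])
      have hVt : IsTangent D r V :=
        (tangentSpace D r).sub_mem hUT.1.1 ((tangentSpace D r).smul_mem y hcob)
      have hVshape : ∀ σ, V σ = !![0, U σ 0 1 - y * (1 - χ σ); 0, 0] := fun σ => by
        rw [hV, Pi.sub_apply, Pi.smul_apply, adCob_apply, hE, hshape σ, hE₁]
        ext i j
        fin_cases i <;> fin_cases j <;> simp
      have hVK : ∀ σ, D.FixK σ → V σ = 0 := fun σ hσ => by
        rw [hVshape, hUK σ hσ]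
        ext i j
        fin_cases i <;> fin_cases j <;> simp [hχdef, huni σ hσ]
      have hVτ : V τ = 0 := by
        rw [hVshape, hy, div_mul_cancel₀ _ (sub_ne_zero.2 (Ne.symm hτ1)), sub_self]
        ext i j
        fin_cases i <;> fin_cases j <;> rfl
      have hVg : V g = 0 := by
        have hc := cocycle_conj hVt g τ
        rw [eq_zero_of_fixW hVt hτ hprim hVK hVτ (conj_fixW hτ g), hVτ, map_zero, add_zero] at hc
        have h01 := congrFun (congrFun hc 0) 1
        rw [Matrix.zero_apply, Matrix.sub_apply, adMat_corner hup (by rw [hVshape]; rfl)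
          (by rw [hVshape]; rfl) (by rw [hVshape]; rfl)] at h01
        have hχc : r (g * τ * g⁻¹) 0 0 * (r (g * τ * g⁻¹) 1 1)⁻¹ = χ τ := by
          obtain ⟨hg0, hg1⟩ := upper_diag_inv hup g
          rw [(upper_mul hup _ _).1, (upper_mul hup _ _).2, (upper_mul hup _ _).1,
            (upper_mul hup _ _).2]
          have e0 : r g 0 0 * r τ 0 0 * r g⁻¹ 0 0 = r τ 0 0 := by
            rw [mul_right_comm, hg0, one_mul]
          have e1 : r g 1 1 * r τ 1 1 * r g⁻¹ 1 1 = r τ 1 1 := by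
            rw [mul_right_comm, hg1, one_mul]
          rw [e0, e1]
        rw [hχc] at h01
        have hz : V g 0 1 = 0 := by
          by_contra hne
          exact hτ1 (mul_right_cancel₀ hne (by rw [one_mul]; linear_combination h01))
        rw [corner_eq_single (X := V g) (by rw [hVshape]; rfl) (by rw [hVshape]; rfl)
          (by rw [hVshape]; rfl), hz]
        ext i j
        fin_cases i <;> fin_cases j <;> rfl
      have hV0 := eq_zero_of_generators hVt hτ hprim hg hVK hVτ hVg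
      rw [hV, sub_eq_zero] at hV0
      exact Submodule.mem_span_singleton.2 ⟨y, hV0.symm⟩
    refine ⟨h1, h2.trans ?_⟩
    exact Nat.add_le_add_right ((finrank_span_le_card _).trans (by simp)) 1
  have := hdim₀.1
  obtain ⟨hT1, hT2⟩ := finrank_le_succ (W := T₀) (S := T) fun Y hY Z hZ => by
    by_cases hy : Y g 0 0 = 0
    · refine ⟨1, 0, Or.inl one_ne_zero, ?_⟩
      rw [one_smul, zero_smul, add_zero]
      exact ⟨hY, hy⟩
    · refine ⟨Z g 0 0, -(Y g 0 0), Or.inr (neg_ne_zero.2 hy),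
        add_mem (Submodule.smul_mem _ _ hY) (Submodule.smul_mem _ _ hZ), ?_⟩
      simp [mul_comm]
  -- the whole span
  have hcobT : cobSpace r ≤ T ⊔ Submodule.span k {adCob r E₂} := by
    rintro _ ⟨X, hX, rfl⟩
    have hX' : X.trace = 0 := hX
    have hsplit : adCob r X = adCob r (X - X 1 0 • E₂) + X 1 0 • adCob r E₂ := by
      rw [map_sub, map_smul]
      exact (sub_add_cancel _ _).symm
    rw [hsplit]
    refine Submodule.add_mem_sup ⟨isTangent_adCob hF ?_, ?_, ?_⟩
      (Submodule.smul_mem _ _ (Submodule.mem_span_singleton_self _))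
    · rw [Matrix.trace_sub, Matrix.trace_smul, hX']
      simp [hE₂, Matrix.trace_fin_two]
    · intro σ
      obtain ⟨h1, -⟩ := adMat_upper_lower hup (X := X - X 1 0 • E₂) (by simp [hE₂]) σ
      rw [adCob_apply, Matrix.sub_apply, h1]
      simp [hE₂]
    · intro σ _
      obtain ⟨-, h1⟩ := adMat_upper_lower hup (X := X - X 1 0 • E₂) (by simp [hE₂]) σ
      rw [adCob_apply, Matrix.sub_apply, h1, sub_self]
  have hle : Submodule.span k {Z | IsTangent D r Z ∧ IsTriangularClass r Z} ⊔ cobSpace r ≤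
      T ⊔ Submodule.span k {adCob r E₂} := by
    refine sup_le (Submodule.span_le.2 ?_) hcobT
    rintro Z ⟨hZ, X, hX, h⟩
    have hX' : X.trace = 0 := hX
    have hsum : Z + adCob r X ∈ T := ⟨(tangentSpace D r).add_mem hZ (isTangent_adCob hF hX'),
      fun σ => (h σ).1, fun σ hσ => (h σ).2 hσ⟩
    have := (T ⊔ Submodule.span k {adCob r E₂}).sub_mem (Submodule.mem_sup_left hsum)
      (hcobT ⟨X, hX, rfl⟩)
    simpa using this
  obtain ⟨hS1, hS2⟩ := finrank_sup_singleton_le hle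
  have := hdim₀.2
  exact ⟨hS1, by omega⟩

end Fermat.Agent.FlatLocal
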