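import Fermat.Agent.FlatLocal.Bound.Module
import Fermat.Agent.FlatLocal.Bound.Ordinary

/-!
# Deformations with a model of an ordinary residual representation are ordinary

For a lift `R` to the dual numbers of an ordinary residual representation with a local model, two
subquotients are used: the plane on which `R` acts by `(r₀₀, 0; c r₀₀, r₁₁)`, `c` the lower entry
of `Z`, which forces `c` to be a coboundary; then the quotient line of the triangularised lift,
on which inertia must act trivially.
-/

set_option autoImplicit false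

noncomputable section

open Matrix

namespace Fermat.Agent.FlatLocal

variable {p : ℕ} [Fact p.Prime]

section CharMod

variable {A : Type} [CommRing A]

/-- The module of a character. -/
def CharMod (_χ : Gp p →* A) : Type := A

variable (χ : Gp p →* A)

instance : AddCommGroup (CharMod χ) := inferInstanceAs (AddCommGroup A)

instance : DistribMulAction (Gp p) (CharMod χ) where
  smul σ a := (χ σ * (show A from a) : A)
  one_smul a := by
    show χ 1 * (show A from a) = (show A from a)
    rw [map_one, one_mul]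
  mul_smul σ τ a := by
    show χ (σ * τ) * (show A from a) = χ σ * (χ τ * (show A from a))
    rw [map_mul, mul_assoc]
  smul_zero σ := mul_zero (χ σ)
  smul_add σ a b := mul_add (χ σ) (show A from a) (show A from b)

end CharMod

variable {k : Type} [Field k] [CharP k p]

/-- A lift to the dual numbers with a local model, of an ordinary residual representation, is
up to a coboundary upper triangular with unramified quotient. -/
theorem isTriangularClass_of_hasLocalModel [Finite k] (hp2 : p ≠ 2)
    (r : Gp p →* Matrix (Fin 2) (Fin 2) k) (hr : IsOrdinaryShape r)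
    (Z : Gp p → Matrix (Fin 2) (Fin 2) k) (htr : ∀ σ, (Z σ).trace = 0)
    (hcoc : ∀ σ τ, Z (σ * τ) = Z σ + r σ * Z τ * r σ⁻¹)
    (R : Gp p →* Matrix (Fin 2) (Fin 2) (DualNumber k))
    (hR : ∀ σ i j, R σ i j =
      TrivSqZeroExt.inl (r σ i j) + TrivSqZeroExt.inr ((Z σ * r σ) i j))
    (hm : HasLocalModel p (RepMod R)) :
    IsTriangularClass r Z := by
  classical
  have hpk : (p : k) = 0 := CharP.cast_eq_zero k p
  have hpA : (p : DualNumber k) = 0 := by
    rw [← map_natCast (TrivSqZeroExt.inlHom k k), hpk, map_zero]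
  obtain ⟨T⟩ := RepMod.exists_model R hpA hm
  obtain ⟨e, D, -, hval, -, hwild⟩ := T.exists_bigField hp2
  obtain ⟨τ, hτ, hprim⟩ := D.exists_inertia_generator
  have hfst : ∀ σ i j, (R σ i j).fst = r σ i j := fun σ i j => by simp [hR]
  have hsnd : ∀ σ i j, (R σ i j).snd = (Z σ * r σ) i j := fun σ i j => by simp [hR]
  -- an element acting trivially has trivial `r` and `Z`
  have htriv : ∀ σ : Gp p, (∀ m : RepMod R, σ • m = m) → r σ = 1 ∧ Z σ = 0 := by
    intro σ h
    have hR1 : R σ = 1 := Matrix.ext fun i j => by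
      have h1 := congrFun (congrArg (RepMod.coords R) (h (RepMod.mk R (Pi.single j 1)))) i
      rw [RepMod.coords_smul] at h1
      simpa [RepMod.coords, RepMod.mk, Matrix.one_apply, Pi.single_apply] using h1
    have hr1 : r σ = 1 := Matrix.ext fun i j => by
      rw [← hfst, hR1, Matrix.one_apply, Matrix.one_apply]
      split_ifs <;> simp
    refine ⟨hr1, Matrix.ext fun i j => ?_⟩
    have h2 := hsnd σ i j
    rw [hr1, mul_one] at h2
    rw [← h2, hR1, Matrix.one_apply]
    split_ifs <;> simp
  have hfix : ∀ σ : Gp p, (∀ x ∈ D.F, σ x = x) → ∀ m : RepMod R, σ • m = m := fun σ h m =>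
    (T.smul_eq_smul_of_eq_on (σ' := 1) fun i => by
      rw [AlgEquiv.one_apply]; exact h _ (hval i m)).trans (one_smul _ m)
  have hF : ∀ σ : Gp p, (∀ x ∈ D.F, σ x = x) → r σ = 1 := fun σ h => (htriv σ (hfix σ h)).1
  have hZ : IsTangent D r Z := ⟨htr, hcoc, fun σ h => (htriv σ (hfix σ h)).2⟩
  -- diagonal entries
  have hup := hr.upper
  have hdiag := Bound.upper_diag_inv hup
  have hne : ∀ σ, r σ 0 0 ≠ 0 ∧ r σ 1 1 ≠ 0 := fun σ =>
    ⟨left_ne_zero_of_mul_eq_one (hdiag σ).1, left_ne_zero_of_mul_eq_one (hdiag σ).2⟩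
  have hinv00 : ∀ σ, r σ⁻¹ 0 0 = (r σ 0 0)⁻¹ := fun σ => eq_inv_of_mul_eq_one_right (hdiag σ).1
  have hinv11 : ∀ σ, r σ⁻¹ 1 1 = (r σ 1 1)⁻¹ := fun σ => eq_inv_of_mul_eq_one_right (hdiag σ).2
  have hK1 : ∀ σ, D.FixK σ → r σ 0 0 = 1 ∧ r σ 1 1 = 1 := by
    intro σ hσ
    obtain ⟨σ', hI, hr', -, hK⟩ := Bound.exists_inertia_same (Bound.fixW_of_fixK hσ) hF
    refine ⟨?_, hr' ▸ hr.quot σ' hI⟩
    rw [← hr', hr.sub D.zeta D.zeta_spec σ' hI 1 (by rw [pow_one]; exact hK hσ _ D.zeta_mem_K),
      Nat.cast_one]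
  have hτ1 : r τ 1 1 = 1 := hr.quot τ hτ
  have hτ0 : r τ 0 0 ≠ 1 := by
    obtain ⟨a, -, ha⟩ := Engine.exists_zeta_image D τ
    rw [hr.sub D.zeta D.zeta_spec τ hτ a.val ha]
    intro h1
    have h2 : ((a.val : ℕ) : ZMod p) = ((1 : ℕ) : ZMod p) := by
      rw [ZMod.natCast_eq_natCast_iff, ← CharP.natCast_eq_natCast k p, h1, Nat.cast_one]
    have h4 := Engine.res_xi_pow_top D hτ ha
    rw [← map_natCast (algebraMap (ZMod p) (Engine.Res p)), h2, Nat.cast_one, map_one] at h4
    exact (Engine.isPrimitiveRoot_res_xi D hprim).pow_ne_one_of_pos_of_lt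
      (Engine.top_pos D).ne' (Engine.top_lt D hp2) h4
  -- the lower entry
  set χ : Gp p → k := fun σ => r σ 1 1 * (r σ 0 0)⁻¹ with hχ
  have had10 : ∀ σ (Y : Matrix (Fin 2) (Fin 2) k), Bound.adMat r σ Y 1 0 = χ σ * Y 1 0 := by
    intro σ Y
    simp [Bound.adMat_apply, Matrix.mul_apply, Fin.sum_univ_two, hup σ, hup σ⁻¹, hinv00, hχ]
    ring
  have hχτ : χ τ ≠ 1 := by
    simp only [hχ, hτ1, one_mul, ne_eq, inv_eq_one]
    exact hτ0
  -- the plane
  let L : Gp p →* Matrix (Fin 2) (Fin 2) k :=
    { toFun := fun σ => !![r σ 0 0, 0; Z σ 1 0 * r σ 0 0, r σ 1 1]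
      map_one' := by
        rw [map_one, hZ.eq_zero_of_fix 1 fun _ _ => rfl]
        ext i j
        fin_cases i <;> fin_cases j <;> simp
      map_mul' := fun σ ρ => by
        obtain ⟨h00, h11⟩ := Bound.upper_mul hup σ ρ
        have hc : Z (σ * ρ) 1 0 = Z σ 1 0 + χ σ * Z ρ 1 0 := by
          rw [Bound.cocycle' hZ, Matrix.add_apply, had10]
        ext i j
        fin_cases i <;> fin_cases j <;> simp [h00, h11, hc, hχ, Matrix.mul_apply, Fin.sum_univ_two]
        field_simp [(hne σ).1] }
  have hLmodel : HasLocalModel p (RepMod L) := by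
    let S : AddSubgroup (RepMod R) :=
      { carrier := {v | (RepMod.coords R v 1).fst = 0}
        zero_mem' := TrivSqZeroExt.fst_zero
        add_mem' := fun {v w} hv hw => by
          show (RepMod.coords R v 1 + RepMod.coords R w 1).fst = 0
          rw [TrivSqZeroExt.fst_add, show (RepMod.coords R v 1).fst = 0 from hv,
            show (RepMod.coords R w 1).fst = 0 from hw, add_zero]
        neg_mem' := fun {v} hv => by
          show (-RepMod.coords R v 1).fst = 0
          rw [TrivSqZeroExt.fst_neg, show (RepMod.coords R v 1).fst = 0 from hv, neg_zero] }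
    have hS : ∀ (σ : Gp p), ∀ v ∈ S, σ • v ∈ S := fun σ v hv => by
      show (RepMod.coords R (σ • v) 1).fst = 0
      rw [RepMod.coords_smul, Matrix.mulVec, dotProduct, Fin.sum_univ_two, TrivSqZeroExt.fst_add,
        TrivSqZeroExt.fst_mul, TrivSqZeroExt.fst_mul, hfst, hup,
        show (RepMod.coords R v 1).fst = 0 from hv, zero_mul, mul_zero, add_zero]
    let _ : DistribMulAction (Gp p) S :=
      { smul := fun σ v => ⟨σ • (v : RepMod R), hS σ _ v.2⟩
        one_smul := fun v => Subtype.ext (one_smul _ _)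
        mul_smul := fun σ ρ v => Subtype.ext (mul_smul _ _ _)
        smul_zero := fun σ => Subtype.ext (smul_zero σ)
        smul_add := fun σ v w => Subtype.ext (smul_add σ _ _) }
    have hSm : HasLocalModel p S :=
      hm.of_injective S.subtype Subtype.val_injective fun _ _ => rfl
    let q : S →+ RepMod L :=
      { toFun := fun v => RepMod.mk L
          ![(RepMod.coords R v.1 0).fst, (RepMod.coords R v.1 1).snd]
        map_zero' := by funext i; fin_cases i <;> rfl
        map_add' := fun v w => by funext i; fin_cases i <;> rfl }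
    refine hSm.of_surjective q (fun w => ?_) fun σ v => ?_
    · refine ⟨⟨RepMod.mk R ![TrivSqZeroExt.inl (RepMod.coords L w 0),
        TrivSqZeroExt.inr (RepMod.coords L w 1)], ?_⟩, ?_⟩
      · show (RepMod.coords R (RepMod.mk R _) 1).fst = 0
        simp [RepMod.coords, RepMod.mk]
      · funext i
        fin_cases i <;> simp [q, RepMod.coords, RepMod.mk] <;> rfl
    · have hv : (RepMod.coords R v.1 1).fst = 0 := v.2
      change RepMod.mk L ![(RepMod.coords R (σ • v.1) 0).fst, (RepMod.coords R (σ • v.1) 1).snd] =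
        L σ *ᵥ ![(RepMod.coords R v.1 0).fst, (RepMod.coords R v.1 1).snd]
      funext i
      rw [RepMod.coords_smul]
      fin_cases i <;>
        simp [RepMod.mk, L, Matrix.mulVec, dotProduct, Fin.sum_univ_two, hfst, hsnd, hv,
          Matrix.mul_apply, hup σ]
  obtain ⟨TL⟩ := RepMod.exists_model L hpk hLmodel
  have hwildL : WildActsByPGroup (RepMod L) D := fun σ hσ => by
    obtain ⟨a, ha⟩ := hwild σ hσ
    refine ⟨a, fun m => ?_⟩
    obtain ⟨h1, h2⟩ := htriv _ ha
    show L (σ ^ p ^ a) *ᵥ RepMod.coords L m = RepMod.coords L m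
    rw [show L (σ ^ p ^ a) = 1 by
      ext i j
      fin_cases i <;> fin_cases j <;> simp [L, h1, h2], Matrix.one_mulVec]
  have hcK : ∀ σ, D.FixK σ → Z σ 1 0 = 0 := by
    intro σ hσ
    let N : AddSubgroup (RepMod L) :=
      { carrier := {v | RepMod.coords L v 0 = 0}
        zero_mem' := rfl
        add_mem' := fun {v w} hv hw => by
          show RepMod.coords L v 0 + RepMod.coords L w 0 = 0
          rw [show RepMod.coords L v 0 = 0 from hv, show RepMod.coords L w 0 = 0 from hw, add_zero]
        neg_mem' := fun {v} hv => by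
          show -RepMod.coords L v 0 = 0
          rw [show RepMod.coords L v 0 = 0 from hv, neg_zero] }
    have hcoord : ∀ (ρ : Gp p) (v : RepMod L),
        RepMod.coords L (ρ • v) 0 = r ρ 0 0 * RepMod.coords L v 0 ∧
        RepMod.coords L (ρ • v) 1 = Z ρ 1 0 * r ρ 0 0 * RepMod.coords L v 0 +
          r ρ 1 1 * RepMod.coords L v 1 := fun ρ v => by
      rw [RepMod.coords_smul]
      constructor <;> simp [L, Matrix.mulVec, dotProduct, Fin.sum_univ_two]
    have hNfix : ∀ ρ : Gp p, r ρ 1 1 = 1 → ∀ v ∈ N, ρ • v = v := fun ρ h1 v hv => by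
      have hv0 : RepMod.coords L v 0 = 0 := hv
      funext i
      show RepMod.coords L (ρ • v) i = RepMod.coords L v i
      fin_cases i
      · simp [(hcoord ρ v).1, hv0]
      · simp [(hcoord ρ v).2, hv0, h1]
    have h := TL.fixK_trivial_of_split hp2 D hwildL hτ hprim N (hNfix τ hτ1)
      (fun ρ hρ => hNfix ρ (hK1 ρ hρ).2)
      (fun ρ hρ v => by
        show RepMod.coords L (ρ • v) 0 - RepMod.coords L v 0 = 0
        rw [(hcoord ρ v).1, (hK1 ρ hρ).1, one_mul, sub_self])
      (fun v => ⟨RepMod.mk L ![RepMod.coords L v 0 / (r τ 0 0 - 1), 0], by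
        show RepMod.coords L v 0 - (RepMod.coords L (τ • RepMod.mk L _) 0 -
          RepMod.coords L (RepMod.mk L _) 0) = 0
        rw [(hcoord τ _).1]
        simp only [RepMod.coords, RepMod.mk, Matrix.cons_val_zero]
        field_simp [sub_ne_zero.2 hτ0]
        ring⟩)
      hσ (RepMod.mk L ![1, 0])
    have h1 := congrArg (fun v => RepMod.coords L v 1) h
    simp only [(hcoord σ _).2] at h1
    simpa [RepMod.coords, RepMod.mk, (hK1 σ hσ).1] using h1
  -- kill the lower entry
  set x : k := -(Z τ 1 0) / (1 - χ τ) with hx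
  set X : Matrix (Fin 2) (Fin 2) k := !![0, 0; x, 0] with hX
  have hXtr : X ∈ tr0 k := by
    simp [tr0, hX, Matrix.trace_fin_two]
  set Z' := Z + adCob r X with hZ'
  have hZ't : IsTangent D r Z' :=
    (Bound.tangentSpace D r).add_mem hZ (Bound.isTangent_adCob hF (by simp [hX, Matrix.trace_fin_two]))
  have hZ'10 : ∀ σ, Z' σ 1 0 = Z σ 1 0 + (x - χ σ * x) := fun σ => by
    rw [hZ', Pi.add_apply, Matrix.add_apply, Bound.adCob_apply, Matrix.sub_apply, had10]
    simp [hX]
  have hc' : ∀ σ, Z' σ 1 0 = 0 := by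
    have hc'K : ∀ σ, D.FixK σ → Z' σ 1 0 = 0 := fun σ hσ => by
      simp [hZ'10, hcK σ hσ, hχ, (hK1 σ hσ).1, (hK1 σ hσ).2]
    have hcmul : ∀ σ ρ, Z' (σ * ρ) 1 0 = Z' σ 1 0 + χ σ * Z' ρ 1 0 := fun σ ρ => by
      rw [Bound.cocycle' hZ't, Matrix.add_apply, had10]
    have hc'τ : Z' τ 1 0 = 0 := by
      rw [hZ'10, hx]
      field_simp [sub_ne_zero.2 (Ne.symm hχτ)]
      ring
    have hc'τn : ∀ n : ℕ, Z' (τ ^ n) 1 0 = 0 := fun n => by
      induction n with
      | zero => rw [pow_zero, Bound.cocycle_one hZ't]; rfl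
      | succ n ih => rw [pow_succ, hcmul, ih, hc'τ, mul_zero, add_zero]
    intro g
    obtain ⟨i, hi⟩ := D.exists_pow_fixK hτ hprim (Bound.conj_fixW hτ g)
    have h0 : Z' (g * τ * g⁻¹) 1 0 = 0 := by
      rw [← mul_inv_cancel_left (τ ^ i) (g * τ * g⁻¹), hcmul, hc'τn, hc'K _ hi, mul_zero, add_zero]
    have hχc : χ (g * τ * g⁻¹) = χ τ := by
      obtain ⟨a1, b1⟩ := Bound.upper_mul hup (g * τ) g⁻¹
      obtain ⟨a2, b2⟩ := Bound.upper_mul hup g τ
      simp only [hχ, a1, b1, a2, b2, hinv00, hinv11]
      field_simp [(hne g).1, (hne g).2]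
    have h := congrFun (congrFun (Bound.cocycle_conj hZ't g τ) 1) 0
    rw [h0, Matrix.sub_apply, Matrix.add_apply, had10, had10, hc'τ, mul_zero, add_zero, hχc,
      ← one_sub_mul, eq_comm, mul_eq_zero] at h
    exact h.resolve_left (sub_ne_zero.2 (Ne.symm hχτ))
  -- the quotient line
  have had11 : ∀ σ (Y : Matrix (Fin 2) (Fin 2) k), Y 1 0 = 0 →
      Bound.adMat r σ Y 1 1 = Y 1 1 := by
    intro σ Y hY
    simp [Bound.adMat_apply, Matrix.mul_apply, Fin.sum_univ_two, hup σ, hinv11, hY]
    field_simp [(hne σ).2]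
  let δ : Gp p →* DualNumber k :=
    { toFun := fun σ =>
        TrivSqZeroExt.inl (r σ 1 1) + TrivSqZeroExt.inr (r σ 1 1 * Z' σ 1 1)
      map_one' := by
        rw [Bound.cocycle_one hZ't, map_one]
        ext <;> simp
      map_mul' := fun σ ρ => by
        have hz : Z' (σ * ρ) 1 1 = Z' σ 1 1 + Z' ρ 1 1 := by
          rw [Bound.cocycle' hZ't, Matrix.add_apply, had11 σ _ (hc' ρ)]
        ext <;> simp [(Bound.upper_mul hup σ ρ).2, hz]
        ring }
  have hδmodel : HasLocalModel p (CharMod δ) := by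
    let q : RepMod R →+ CharMod δ :=
      { toFun := fun v => (RepMod.coords R v 1 + TrivSqZeroExt.inr x * RepMod.coords R v 0 :
          DualNumber k)
        map_zero' := by
          show (0 : DualNumber k) + TrivSqZeroExt.inr x * 0 = (0 : DualNumber k)
          rw [mul_zero, add_zero]
        map_add' := fun v w => by
          show RepMod.coords R v 1 + RepMod.coords R w 1 +
              TrivSqZeroExt.inr x * (RepMod.coords R v 0 + RepMod.coords R w 0) =
            (RepMod.coords R v 1 + TrivSqZeroExt.inr x * RepMod.coords R v 0) +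
              (RepMod.coords R w 1 + TrivSqZeroExt.inr x * RepMod.coords R w 0)
          rw [mul_add]
          abel }
    refine hm.of_surjective q (fun w => ?_) fun σ v => ?_
    · refine ⟨RepMod.mk R ![0, (show DualNumber k from w)], ?_⟩
      show (show DualNumber k from w) + TrivSqZeroExt.inr x * 0 = (show DualNumber k from w)
      rw [mul_zero, add_zero]
    · change RepMod.coords R (σ • v) 1 + TrivSqZeroExt.inr x * RepMod.coords R (σ • v) 0 =
        δ σ * (RepMod.coords R v 1 + TrivSqZeroExt.inr x * RepMod.coords R v 0)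
      have h10 := hZ'10 σ
      rw [hc'] at h10
      have hc10 : Z σ 1 0 * r σ 0 0 = x * r σ 1 1 - x * r σ 0 0 := by
        have h' : Z σ 1 0 * r σ 0 0 + x * r σ 0 0 - χ σ * r σ 0 0 * x = 0 := by
          linear_combination -(r σ 0 0) * h10
        have h'' : χ σ * r σ 0 0 = r σ 1 1 := by
          rw [hχ]
          field_simp [(hne σ).1]
        linear_combination h' + x * h''
      have h11 : r σ 1 1 * Z' σ 1 1 = (Z σ * r σ) 1 1 + x * r σ 0 1 := by
        have hinv01 : r σ⁻¹ 0 1 * r σ 0 0 * r σ 1 1 = -r σ 0 1 := by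
          have h := congrFun (congrFun (Bound.r_mul_inv r σ) 0) 1
          simp only [Matrix.mul_apply, Fin.sum_univ_two, hinv11, Matrix.one_apply_ne
            (show (0 : Fin 2) ≠ 1 by decide)] at h
          field_simp [(hne σ).2] at h
          linear_combination h
        have had : Bound.adMat r σ X 1 1 * r σ 0 0 = -(x * r σ 0 1) := by
          simp only [Bound.adMat_apply, hX, Matrix.mul_apply, Fin.sum_univ_two, hup σ]
          simp
          linear_combination x * hinv01
        simp only [hZ', Pi.add_apply, Matrix.add_apply, Bound.adCob_apply, Matrix.sub_apply,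
          Matrix.mul_apply, Fin.sum_univ_two]
        simp only [hX, Matrix.of_apply, Matrix.cons_val', Matrix.cons_val_one, Matrix.cons_val_zero,
          Matrix.cons_val_fin_one] at had ⊢
        apply mul_right_cancel₀ (hne σ).1
        linear_combination -(r σ 1 1) * had - r σ 0 1 * hc10
      rw [RepMod.coords_smul]
      ext
      · simp [δ, Matrix.mulVec, dotProduct, Fin.sum_univ_two, hfst, hup σ]
      · simp [δ, Matrix.mulVec, dotProduct, Fin.sum_univ_two, hfst, hsnd, hup σ,
          Matrix.mul_apply] at h11 ⊢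
        linear_combination ((RepMod.coords R v 0).fst) * hc10 -
          ((RepMod.coords R v 1).fst) * h11
  have hexpδ : ∀ m : CharMod δ, p • m = 0 := fun m => by
    show p • (show DualNumber k from m) = (0 : DualNumber k)
    rw [nsmul_eq_mul, hpA, zero_mul]
  have : Finite (CharMod δ) := inferInstanceAs (Finite (DualNumber k))
  obtain ⟨TQ⟩ := hδmodel.exists_model hexpδ
  have hwildQ : WildActsByPGroup (CharMod δ) D := fun σ hσ => by
    obtain ⟨a, ha⟩ := hwild σ hσ
    refine ⟨a, fun m => ?_⟩
    obtain ⟨h1, h2⟩ := htriv _ ha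
    show δ (σ ^ p ^ a) * (show DualNumber k from m) = (show DualNumber k from m)
    rw [show δ (σ ^ p ^ a) = 1 by
      ext <;> simp [δ, hZ', h1, h2, Bound.adCob_apply, Bound.adMat_of_eq_one r h1], one_mul]
  have hQ0 := TQ.connected_inter_eq_zero hp2 D hwildQ hτ hprim ⊤
    (fun _ _ _ _ => AddSubgroup.mem_top _) (fun _ _ => AddSubgroup.mem_top _) fun m _ => by
      show δ τ * (δ τ * (show DualNumber k from m) - (show DualNumber k from m)) =
        δ τ * (show DualNumber k from m) - (show DualNumber k from m)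
      ext <;> simp [δ, hτ1]
  refine ⟨X, hXtr, fun σ => ⟨hc' σ, fun hI => ?_⟩⟩
  have h := hQ0 _ (AddSubgroup.mem_top _)
    (TQ.smul_sub_mem_connected (σ := σ) (m := ((1 : DualNumber k) : CharMod δ))
      fun i => hI _ (TQ.norm_le i _))
  change δ σ * (1 : DualNumber k) - 1 = (0 : DualNumber k) at h
  have h' := congrArg TrivSqZeroExt.snd h
  simp [δ, hr.quot σ hI] at h'
  have ht := hZ't.trace_eq_zero σ
  rw [Matrix.trace_fin_two, h', add_zero] at ht
  exact ht

end Fermat.Agent.FlatLocal
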