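import Fermat.Agent.FlatLocal.Bound.Residual.Exponent

/-!
# Residual representations with a model: ordinary or supersingular
-/

set_option autoImplicit false

noncomputable section

open Matrix

namespace Fermat.Agent.FlatLocal

variable {p : ℕ} [Fact p.Prime]
variable {k : Type} [Field k]

namespace Shape

/-- A `Gal(C/ℚ_p)`-stable line with trivial inertia on the quotient gives the ordinary shape. -/
theorem ordinary_of_line [CharP k p] {r : Gp p →* Matrix (Fin 2) (Fin 2) k} {e : ℕ}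
    (D : TameField p e) {τ g : Gp p} (hτ : IsInertia τ)
    (hprim : IsPrimitiveRoot (τ D.ϖ / D.ϖ) e)
    (hg : ∀ (z : PadicAlgCl p) (N : ℕ), ¬ p ∣ N → z ^ N = 1 → g z = z ^ p)
    (hdet : ∀ z : PadicAlgCl p, IsPrimitiveRoot z p → ∀ σ : Gp p,
      ∀ a : ℕ, σ z = z ^ a → (r σ).det = (a : k))
    (P : (Matrix (Fin 2) (Fin 2) k)ˣ) (hg10 : conjBy P r g 1 0 = 0)
    (hτ10 : conjBy P r τ 1 0 = 0) (hK10 : ∀ ρ, D.FixK ρ → conjBy P r ρ 1 0 = 0)
    (hτ11 : conjBy P r τ 1 1 = 1) (hK11 : ∀ ρ, D.FixK ρ → conjBy P r ρ 1 1 = 1) :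
    IsOrdinaryShape (conjBy P r) := by
  set M := conjBy P r with hM
  have hupper : ∀ h, M h 1 0 = 0 := by
    intro h
    obtain ⟨j, i, ρ, hρ, rfl⟩ := exists_decomposition D hτ hprim hg h
    exact (upper_mul_apply _ _ (upper_pow_apply g hg10 j).1
      (upper_mul_apply _ _ (upper_pow_apply τ hτ10 i).1 (hK10 ρ hρ)).1).1
  have hquot : ∀ σ, IsInertia σ → M σ 1 1 = 1 := by
    intro σ hσ
    obtain ⟨i, ρ, hρ, rfl⟩ := exists_inertia_decomposition D hτ hprim hσ
    rw [(upper_mul_apply _ _ (hupper _) (hupper _)).2.2, (upper_pow_apply τ hτ10 i).2.2, hτ11,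
      one_pow, one_mul, hK11 ρ hρ]
  refine ⟨hupper, hquot, fun z hz σ hσ a ha => ?_⟩
  have h := hdet z hz σ a ha
  rwa [← det_conjBy r P, ← hM, Matrix.det_fin_two, hupper, mul_zero, sub_zero, hquot σ hσ,
    mul_one] at h

/-- Eigenvectors for `c` and `c ^ p` with `c` of exponent `E` give the supersingular shape. -/
theorem supersingular_of_basis [Algebra (ZMod p) k] {r : Gp p →* Matrix (Fin 2) (Fin 2) k} {e : ℕ}
    (D : TameField p e) {E : ℕ} (he : e = (p ^ 2 - 1) * E) {τ : Gp p} (hτ : IsInertia τ)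
    (hprim : IsPrimitiveRoot (τ D.ϖ / D.ϖ) e) (htriv : ∀ ρ, D.FixK ρ → r ρ = 1) {c : k}
    {v w : Fin 2 → k} (hdvw : (colMat v w).det ≠ 0) (hv : r τ *ᵥ v = c • v)
    (hw : r τ *ᵥ w = c ^ p • w)
    (hc : ∀ P : Polynomial (ZMod p),
      Polynomial.aeval (Engine.res (Engine.xi D τ) ^ E) P = 0 → Polynomial.aeval c P = 0) :
    ∃ P : (Matrix (Fin 2) (Fin 2) k)ˣ, ∃ u, IsSupersingularShape (conjBy P r) u := by
  set P := Matrix.nonsingInvUnit (colMat v w) hdvw.isUnit
  have hP : (P : Matrix (Fin 2) (Fin 2) k) = colMat v w := rfl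
  set M := conjBy P r with hM
  have h00 := conjBy_col_zero r P hP hv
  have h11 := conjBy_col_one r P hP hw
  have hinert : ∀ σ, IsInertia σ → ∃ i : ℕ, ∃ ρ, D.FixK ρ ∧ σ = τ ^ i * ρ ∧
      M σ = !![c ^ i, 0; 0, (c ^ i) ^ p] := by
    intro σ hσ
    obtain ⟨i, ρ, hρ, rfl⟩ := exists_inertia_decomposition D hτ hprim hσ
    refine ⟨i, ρ, hρ, rfl, ?_⟩
    have hρ1 : M ρ = 1 := by rw [hM, conjBy_apply, htriv ρ hρ, mul_one, Units.inv_mul]
    rw [map_mul M, hρ1, mul_one, diag_pow_apply τ h11.1 h00.2 i, h00.1, h11.2, pow_right_comm c]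
  refine ⟨P, fun σ => M σ 0 0, fun σ hσ => ?_, fun σ hσ ϖ₂ hϖ₂ Q hQ => ?_⟩
  · obtain ⟨i, ρ, -, -, hMσ⟩ := hinert σ hσ
    show M σ = !![M σ 0 0, 0; 0, M σ 0 0 ^ p]
    rw [hMσ]
    simp
  · obtain ⟨i, ρ, hρ, hdec, hMσ⟩ := hinert σ hσ
    show Polynomial.aeval (M σ 0 0) Q = 0
    rw [hMσ, show !![c ^ i, 0; 0, (c ^ i) ^ p] 0 0 = c ^ i from rfl]
    have h0 : D.ϖ ^ E ≠ 0 := pow_ne_zero _ (Engine.varpi_ne_zero D)
    set η := ϖ₂ / D.ϖ ^ E with hη
    have hp0 : -(p : PadicAlgCl p) ≠ 0 := neg_ne_zero.2 Engine.natCast_p_ne_zero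
    have hηe : η ^ e = 1 := by
      have h2 : η ^ (p ^ 2 - 1) = 1 := by
        rw [hη, div_pow, hϖ₂, ← pow_mul, mul_comm, ← he, D.pow_eq, div_self hp0]
      rw [he, pow_mul, h2, one_pow]
    have hση : σ η = η := D.inertia_fix_W hσ (D.roots_mem_W hηe)
    have hϖ : σ D.ϖ = Engine.xi D τ ^ i * D.ϖ := by
      rw [hdec, AlgEquiv.mul_apply, hρ _ D.varpi_mem_K, Bound.pow_varpi D hτ]
    have hdiv : σ ϖ₂ / ϖ₂ = Engine.xi D τ ^ (i * E) := by
      have hsplit : ϖ₂ = η * D.ϖ ^ E := by rw [hη, div_mul_cancel₀ _ h0]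
      rw [hsplit, map_mul, map_pow, hση, hϖ, mul_pow, ← pow_mul]
      have hη0 : η ≠ 0 := fun h => by
        rw [h, zero_pow D.e_pos.ne'] at hηe
        exact zero_ne_one hηe
      field_simp [hη0, Engine.varpi_ne_zero D]
    rw [hdiv] at hQ
    have hx : ‖Engine.xi D τ ^ (i * E)‖ ≤ 1 := by
      rw [norm_pow, Engine.norm_xi, one_pow]
    rw [← Engine.res_eq_zero_iff (Engine.aeval_mem Q hx), Engine.res_aeval Q hx,
      Engine.res_pow (Engine.norm_xi D τ).le, mul_comm, pow_mul] at hQ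
    have h := hc ((Q.map (algebraMap ℤ (ZMod p))).comp (Polynomial.X ^ i)) (by
      rw [Polynomial.aeval_comp, map_pow, Polynomial.aeval_X, Polynomial.aeval_def,
        Polynomial.eval₂_map,
        RingHom.ext_int ((algebraMap (ZMod p) (Engine.Res p)).comp (algebraMap ℤ (ZMod p)))
          (algebraMap ℤ (Engine.Res p)), ← Polynomial.aeval_def]
      exact hQ)
    rwa [Polynomial.aeval_comp, map_pow, Polynomial.aeval_X, Polynomial.aeval_def,
      Polynomial.eval₂_map,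
      RingHom.ext_int ((algebraMap (ZMod p) k).comp (algebraMap ℤ (ZMod p))) (algebraMap ℤ k),
      ← Polynomial.aeval_def] at h

omit [Fact p.Prime] in
/-- The exponent of a fundamental character of level two. -/
theorem exponent_cases {e E l top : ℕ} (hp : 3 ≤ p) (he : e = (p ^ 2 - 1) * E)
    (htop : top * (p - 1) = e) (hl : l ≤ top) (hmod : l * (p + 1) ≡ top [MOD e]) (hE : 0 < E) :
    l = E ∨ l = p * E := by
  have hpsq : p ^ 2 - 1 = (p + 1) * (p - 1) := by simpa using Nat.sq_sub_sq p 1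
  have htop' : top = (p + 1) * E := by
    refine Nat.eq_of_mul_eq_mul_right (show 0 < p - 1 by omega) ?_
    rw [htop, he, hpsq]
    ring
  have hmod' : l ≡ E [MOD (p - 1) * E] := by
    refine Nat.ModEq.mul_left_cancel' (c := p + 1) (by omega) ?_
    rw [← mul_assoc, ← hpsq, ← he, mul_comm (p + 1) l, ← htop']
    exact hmod
  have hz : ((l : ℤ) - E) % (((p - 1) * E : ℕ) : ℤ) = 0 :=
    Int.emod_eq_zero_of_dvd (Nat.modEq_iff_dvd.1 hmod'.symm)
  obtain ⟨t, ht⟩ := Int.dvd_of_emod_eq_zero hz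
  rw [Nat.cast_mul, Nat.cast_sub (show 1 ≤ p by omega), Nat.cast_one] at ht
  have hE' : (0 : ℤ) < E := by exact_mod_cast hE
  have hl' : (l : ℤ) ≤ ((p : ℤ) + 1) * E := by exact_mod_cast htop' ▸ hl
  have hp' : (3 : ℤ) ≤ p := by exact_mod_cast hp
  have hlpos : (0 : ℤ) ≤ l := by positivity
  have ht0 : 0 ≤ t := by
    by_contra hneg
    have h1 : ((p : ℤ) - 1) * E * t ≤ -(((p : ℤ) - 1) * E) := by
      have h2 : 0 ≤ ((p : ℤ) - 1) * E := mul_nonneg (by omega) hE'.le
      nlinarith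
    nlinarith
  have ht1 : t ≤ 1 := by
    by_contra hbig
    have h1 : 2 * (((p : ℤ) - 1) * E) ≤ ((p : ℤ) - 1) * E * t := by
      have h2 : 0 ≤ ((p : ℤ) - 1) * E := mul_nonneg (by omega) hE'.le
      nlinarith
    nlinarith
  rcases (show t = 0 ∨ t = 1 by omega) with rfl | rfl
  · left
    rw [mul_zero, sub_eq_zero] at ht
    exact_mod_cast ht
  · right
    have : (l : ℤ) = p * E := by linear_combination ht
    exact_mod_cast this

/-- The split case: `Gal(C/K)` acts trivially. -/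
theorem exists_shape_of_trivial [Finite k] [CharP k p] [Algebra (ZMod p) k] (hp2 : p ≠ 2)
    {r : Gp p →* Matrix (Fin 2) (Fin 2) k} (T : Model p (RepMod r)) {e E : ℕ} (D : TameField p e)
    (he : e = (p ^ 2 - 1) * E) (hW : WildActsByPGroup (RepMod r) D)
    (hsplit : ∀ σ, ∃ c : k, (r σ - c • (1 : Matrix (Fin 2) (Fin 2) k)).det = 0)
    (hdet : ∀ z : PadicAlgCl p, IsPrimitiveRoot z p → ∀ σ : Gp p,
      ∀ a : ℕ, σ z = z ^ a → (r σ).det = (a : k))
    {τ g : Gp p} (hτ : IsInertia τ) (hprim : IsPrimitiveRoot (τ D.ϖ / D.ϖ) e)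
    (hg : ∀ (z : PadicAlgCl p) (N : ℕ), ¬ p ∣ N → z ^ N = 1 → g z = z ^ p)
    (htriv : ∀ ρ, D.FixK ρ → r ρ = 1) :
    ∃ P : (Matrix (Fin 2) (Fin 2) k)ˣ,
      IsOrdinaryShape (conjBy P r) ∨ ∃ u, IsSupersingularShape (conjBy P r) u := by
  have hp := (Fact.out : p.Prime)
  have hp3 : 3 ≤ p := by have := hp.two_le; omega
  obtain ⟨a, ha0, ha⟩ := Engine.exists_zeta_image D τ
  set ω := algebraMap (ZMod p) k a with hω
  have hωp : ω ^ p = ω := by rw [hω, ← map_pow, ZMod.pow_card]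
  have hω0 : ω ≠ 0 := (_root_.map_ne_zero _).2 ha0
  have hA : (r τ).det = ω := by
    rw [hdet D.zeta D.zeta_spec τ a.val ha, hω, ← map_natCast (algebraMap (ZMod p) k),
      ZMod.natCast_zmod_val]
  have hη := Engine.isPrimitiveRoot_res_xi D hprim
  have hη_top : Engine.res (Engine.xi D τ) ^ Engine.top D = algebraMap (ZMod p) (Engine.Res p) a := by
    rw [Engine.res_xi_pow_top D hτ ha, ← map_natCast (algebraMap (ZMod p) (Engine.Res p)),
      ZMod.natCast_zmod_val]
  have hω1 : ω ≠ 1 := fun h => by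
    have ha1 : a = 1 := (algebraMap (ZMod p) k).injective (h.trans (map_one _).symm)
    rw [ha1, map_one] at hη_top
    exact hη.pow_ne_one_of_pos_of_lt (Engine.top_pos D).ne' (Engine.top_lt D hp2) hη_top
  have hK : ∀ v : Fin 2 → k, ∀ ρ, D.FixK ρ → ∃ b : k, r ρ *ᵥ v = b • v := fun v ρ hρ =>
    ⟨1, by rw [htriv ρ hρ, Matrix.one_mulVec, one_smul]⟩
  obtain ⟨c, hc⟩ := hsplit τ
  have hc0 : c ≠ 0 := eig_ne_zero (hA ▸ hω0) hc
  have hd := other_eig hc0 hc
  rw [hA] at hd
  obtain ⟨v, hv0, hv⟩ := exists_eigvec hc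
  obtain ⟨ρ₀, hρ₀, hconj⟩ := exists_conj_eq_pow D hτ hg
  have hgA : r g * r τ = r (τ ^ p) * r g := by
    have h : g * τ = τ ^ p * ρ₀ * g := by rw [← hconj, inv_mul_cancel_right]
    rw [← map_mul, h, map_mul, map_mul, htriv ρ₀ hρ₀, mul_one]
  by_cases hcp : c ^ p = c
  · -- eigenvalues `ω` and `1`
    have hcases := eigen_prime T D hW hτ hprim ha hv0 hv (hK v) hc0 hcp
    obtain ⟨v₁, hv₁0, hv₁, w₁, hw₁0, hw₁⟩ : ∃ v₁, v₁ ≠ 0 ∧ r τ *ᵥ v₁ = ω • v₁ ∧
        ∃ w₁, w₁ ≠ 0 ∧ r τ *ᵥ w₁ = (1 : k) • w₁ := by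
      obtain ⟨x, hx0, hx⟩ := exists_eigvec hd
      rcases hcases with rfl | rfl
      · exact ⟨x, hx0, by rwa [div_one] at hx, v, hv0, hv⟩
      · exact ⟨v, hv0, hv, x, hx0, by rwa [div_self hω0] at hx⟩
    have hdet₁ := det_colMat_ne_zero hω1 hv₁0 hw₁0 hv₁ hw₁
    set P := Matrix.nonsingInvUnit (colMat v₁ w₁) hdet₁.isUnit
    have hP : (P : Matrix (Fin 2) (Fin 2) k) = colMat v₁ w₁ := rfl
    have h00 := conjBy_col_zero r P hP hv₁
    have h11 := conjBy_col_one r P hP hw₁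
    have hKM : ∀ ρ, D.FixK ρ → conjBy P r ρ = 1 := fun ρ hρ => by
      rw [conjBy_apply, htriv ρ hρ, mul_one, Units.inv_mul]
    refine ⟨P, Or.inl (ordinary_of_line D hτ hprim hg hdet P ?_ h00.2
      (fun ρ hρ => by rw [hKM ρ hρ]; rfl) h11.2 (fun ρ hρ => by rw [hKM ρ hρ]; rfl))⟩
    have hcomm : conjBy P r g * conjBy P r τ = conjBy P r (τ ^ p) * conjBy P r g := by
      simp only [conjBy_apply, mul_assoc, Units.mul_inv_cancel_left]
      rw [← mul_assoc (r g), hgA, mul_assoc]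
    rw [diag_pow_apply τ h11.1 h00.2 p, h00.1, h11.2, hωp, one_pow] at hcomm
    have h10 := congrFun (congrFun hcomm 1) 0
    simp [Matrix.mul_apply, Fin.sum_univ_two, h00.1, h00.2] at h10
    by_contra hne
    exact hω1 (mul_left_cancel₀ hne (h10.trans (mul_one _).symm))
  · -- level two
    set d := ω / c with hdd
    obtain ⟨x, hx0, hx⟩ := exists_eigvec hd
    have hcd : c ≠ d := fun hcd => by
      apply hcp
      have hsq : c * c = ω := by
        conv_lhs => arg 2; rw [hcd, hdd]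
        rw [mul_div_cancel₀ _ hc0]
      have h1 : c ^ p * c ^ p = c * c := by rw [← mul_pow, hsq, hωp]
      have hgA' : r g *ᵥ v ≠ 0 := fun h => hv0 (by
        rw [← Matrix.one_mulVec v, ← map_one r, ← inv_mul_cancel g, map_mul,
          ← Matrix.mulVec_mulVec, h, Matrix.mulVec_zero])
      -- only one eigenvalue: Frobenius fixes it
      have htr : r τ 0 0 + r τ 1 1 = c + c := by
        have h := hc
        simp [Matrix.det_fin_two] at h
        have hA' := hA
        rw [Matrix.det_fin_two] at hA'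
        refine mul_left_cancel₀ hc0 ?_
        linear_combination -h + hA' - hsq
      have hN : (r τ - c • (1 : Matrix (Fin 2) (Fin 2) k)) ^ 2 = 0 := by
        have hA' := hA
        rw [Matrix.det_fin_two] at hA'
        rw [sq]
        ext i j
        fin_cases i <;> fin_cases j <;> simp [Matrix.mul_apply, Fin.sum_univ_two]
        · linear_combination (r τ 0 0) * htr - hA' + hsq
        · linear_combination (r τ 0 1) * htr
        · linear_combination (r τ 1 0) * htr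
        · linear_combination (r τ 1 1) * htr - hA' + hsq
      have hpow : r (τ ^ p) = c ^ p • (1 : Matrix (Fin 2) (Fin 2) k) := by
        have hcomm : Commute (r τ) (c • (1 : Matrix (Fin 2) (Fin 2) k)) :=
          (Commute.one_right _).smul_right c
        have h2 := sub_pow_char_of_commute (p := p) hcomm
        rw [show (r τ - c • (1 : Matrix (Fin 2) (Fin 2) k)) ^ p = 0 from
          pow_eq_zero_of_le hp.two_le hN, eq_comm, sub_eq_zero,
          smul_pow, one_pow] at h2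
        rw [map_pow, h2]
      have h3 := congrArg (fun M => M *ᵥ v) hgA
      simp only [← Matrix.mulVec_mulVec, hv, Matrix.mulVec_smul, hpow, Matrix.smul_mulVec,
        Matrix.one_mulVec] at h3
      exact (smul_left_injective k hgA' h3).symm
    have hdet₁ := det_colMat_ne_zero hcd hv0 hx0 hv hx
    set P := Matrix.nonsingInvUnit (colMat v x) hdet₁.isUnit
    have hP : (P : Matrix (Fin 2) (Fin 2) k) = colMat v x := rfl
    have h00 := conjBy_col_zero r P hP hv
    have h11 := conjBy_col_one r P hP hx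
    have hcomm : conjBy P r g * conjBy P r τ = conjBy P r (τ ^ p) * conjBy P r g := by
      simp only [conjBy_apply, mul_assoc, Units.mul_inv_cancel_left]
      rw [← mul_assoc (r g), hgA, mul_assoc]
    rw [diag_pow_apply τ h11.1 h00.2 p, h00.1, h11.2] at hcomm
    have hG0 : conjBy P r g 0 0 = 0 := by
      have h := congrFun (congrFun hcomm 0) 0
      simp [Matrix.mul_apply, Fin.sum_univ_two, h00.1, h00.2] at h
      by_contra hne
      exact hcp (mul_left_cancel₀ hne (h.trans (mul_comm _ _))).symm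
    have hG10 : conjBy P r g 1 0 ≠ 0 := fun h => by
      have h1 := congrFun (congrFun (show conjBy P r g⁻¹ * conjBy P r g = 1 by
        rw [← map_mul, inv_mul_cancel, map_one]) 0) 0
      simp [Matrix.mul_apply, Fin.sum_univ_two, hG0, h] at h1
    have hdp : d ^ p = c := by
      have h := congrFun (congrFun hcomm 1) 0
      simp [Matrix.mul_apply, Fin.sum_univ_two, h00.1, h00.2] at h
      exact (mul_left_cancel₀ hG10 (h.trans (mul_comm _ _))).symm
    have hprod : c ^ p * c = ω := by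
      conv_lhs => arg 2; rw [← hdp]
      rw [← mul_pow, hdd, mul_div_cancel₀ _ hc0, hωp]
    have hd' : d = c ^ p := by rw [hdd, div_eq_iff hc0, hprod]
    rw [hd'] at hdp hx
    obtain ⟨l, hl1, hl2, hl⟩ : ∃ l : ℕ, 1 ≤ l ∧ l ≤ Engine.top D ∧ ∀ Q : Polynomial (ZMod p),
        Polynomial.aeval c Q = 0 →
          Polynomial.aeval (Engine.res (Engine.xi D τ) ^ l) Q = 0 :=
      (eigen_exponent T D hW hτ hv0 hv (hK v)).resolve_left fun h1 => hcp (by rw [h1, one_pow])
    have h2 := hl (Polynomial.X ^ (p + 1) - Polynomial.C a) (by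
      rw [map_sub, map_pow, Polynomial.aeval_X, Polynomial.aeval_C, pow_succ, hprod, sub_self])
    rw [map_sub, map_pow, Polynomial.aeval_X, Polynomial.aeval_C, sub_eq_zero, ← pow_mul,
      ← hη_top] at h2
    have hmod : l * (p + 1) ≡ Engine.top D [MOD e] := by
      have heq := (hη.isUnit D.e_pos.ne').unit_spec
      rw [← heq, ← Units.val_pow_eq_pow_val, ← Units.val_pow_eq_pow_val, Units.val_inj,
        pow_eq_pow_iff_modEq, ← orderOf_units, heq, ← hη.eq_orderOf] at h2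
      exact h2
    have hE : 0 < E := Nat.pos_of_ne_zero fun h => D.e_pos.ne' (by rw [he, h, mul_zero])
    rcases exponent_cases hp3 he (Engine.top_mul D) hl2 hmod hE with rfl | rfl
    · obtain ⟨Q, hQ⟩ := supersingular_of_basis D he hτ hprim htriv hdet₁ hv hx
        fun Q hQ => aeval_eq_zero_of_exponent hl hQ
      exact ⟨Q, Or.inr hQ⟩
    · have hdet₂ : (colMat x v).det ≠ 0 := by
        have : (colMat x v).det = -(colMat v x).det := by simp [colMat, Matrix.det_fin_two]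
        rw [this]
        exact neg_ne_zero.2 hdet₁
      obtain ⟨Q, hQ⟩ := supersingular_of_basis D he hτ hprim htriv hdet₂ hx (by rw [hdp]; exact hv)
        fun Q hQ => by
          have hpE : Engine.res (Engine.xi D τ) ^ E =
              (Engine.res (Engine.xi D τ) ^ (p * E)) ^ p := by
            have hsq : p * E * p = e + E := by
              rw [he, Nat.sub_mul, one_mul, Nat.sub_add_cancel
                (Nat.le_mul_of_pos_left E (pow_pos hp.pos 2))]
              ring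
            rw [← pow_mul, hsq, pow_add, hη.pow_eq_one, one_mul]
          have h3 := aeval_eq_zero_of_exponent hl (P := Q.comp (Polynomial.X ^ p)) (by
            rw [Polynomial.aeval_comp, map_pow, Polynomial.aeval_X, ← hpE]
            exact hQ)
          rwa [Polynomial.aeval_comp, map_pow, Polynomial.aeval_X] at h3
      exact ⟨Q, Or.inr hQ⟩

/-- The non-split case: the fixed line of `Gal(C/K)` is stable. -/
theorem exists_shape_of_nontrivial [Finite k] [CharP k p] [Algebra (ZMod p) k] (hp2 : p ≠ 2)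
    {r : Gp p →* Matrix (Fin 2) (Fin 2) k} (T : Model p (RepMod r)) {e : ℕ} (D : TameField p e)
    (hW : WildActsByPGroup (RepMod r) D)
    (hdet : ∀ z : PadicAlgCl p, IsPrimitiveRoot z p → ∀ σ : Gp p,
      ∀ a : ℕ, σ z = z ^ a → (r σ).det = (a : k))
    {τ g : Gp p} (hτ : IsInertia τ) (hprim : IsPrimitiveRoot (τ D.ϖ / D.ϖ) e)
    (hg : ∀ (z : PadicAlgCl p) (N : ℕ), ¬ p ∣ N → z ^ N = 1 → g z = z ^ p)
    {ρ₁ : Gp p} (hρ₁ : D.FixK ρ₁) (hne : r ρ₁ ≠ 1) :
    ∃ P : (Matrix (Fin 2) (Fin 2) k)ˣ, IsOrdinaryShape (conjBy P r) := by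
  have : Nontrivial (RepMod r) := inferInstanceAs (Nontrivial (Fin 2 → k))
  obtain ⟨m₁, hm₁⟩ := exists_ne (0 : RepMod r)
  obtain ⟨m₀, -, hm₀, hfix⟩ := exists_fixed_of_pGroup T.exponent D hW ⊤
    ⟨m₁, AddSubgroup.mem_top _, hm₁⟩ fun _ _ _ _ => AddSubgroup.mem_top _
  set v := RepMod.coords r m₀ with hv
  have hv0 : v ≠ 0 := hm₀
  have hfixv : ∀ ρ, D.FixK ρ → r ρ *ᵥ v = v := fun ρ hρ => by
    rw [← RepMod.coords_smul, hfix ρ hρ]
  -- fixed vectors lie on the line
  have hline : ∀ x : Fin 2 → k, (∀ ρ, D.FixK ρ → r ρ *ᵥ x = x) → ∃ s : k, x = s • v := by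
    intro x hx
    refine eq_smul_of_det_eq_zero hv0 (by_contra fun hd => hne ?_)
    have hB : r ρ₁ * colMat v x = colMat v x := by
      refine Matrix.ext_of_mulVec_single fun i => ?_
      rw [← Matrix.mulVec_mulVec, colMat_mulVec, Matrix.mulVec_add, Matrix.mulVec_smul,
        Matrix.mulVec_smul, hfixv ρ₁ hρ₁, hx ρ₁ hρ₁]
    calc r ρ₁ = r ρ₁ * colMat v x * (colMat v x)⁻¹ := by
          rw [mul_assoc, Matrix.mul_nonsing_inv _ (isUnit_iff_ne_zero.2 hd), mul_one]
      _ = 1 := by rw [hB, Matrix.mul_nonsing_inv _ (isUnit_iff_ne_zero.2 hd)]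
  have hstable : ∀ σ, ∃ s : k, r σ *ᵥ v = s • v := fun σ => hline _ fun ρ hρ => by
    have hc : D.FixK (σ⁻¹ * ρ * σ) := by simpa using Engine.fixK_conj D σ⁻¹ hρ
    rw [Matrix.mulVec_mulVec, ← map_mul, show ρ * σ = σ * (σ⁻¹ * ρ * σ) by group, map_mul,
      ← Matrix.mulVec_mulVec, hfixv _ hc]
  obtain ⟨w, hw⟩ := exists_basis_det_ne_zero hv0
  set P := Matrix.nonsingInvUnit (colMat v w) hw.isUnit
  have hP : (P : Matrix (Fin 2) (Fin 2) k) = colMat v w := rfl
  set M := conjBy P r with hM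
  have hup : ∀ σ, M σ 1 0 = 0 := fun σ => by
    obtain ⟨s, hs⟩ := hstable σ
    exact (conjBy_col_zero r P hP hs).2
  have hK0 : ∀ ρ, D.FixK ρ → M ρ 0 0 = 1 := fun ρ hρ =>
    (conjBy_col_zero r P hP (show r ρ *ᵥ v = (1 : k) • v by rw [one_smul, hfixv ρ hρ])).1
  have hK1 : ∀ ρ, D.FixK ρ → M ρ 1 1 = 1 := by
    intro ρ hρ
    obtain ⟨a, ha⟩ := hW ρ hρ
    have h1 : r (ρ ^ p ^ a) = 1 := by
      refine Matrix.ext_of_mulVec_single fun i => ?_
      rw [Matrix.one_mulVec]
      exact ha (RepMod.mk r (Pi.single i 1))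
    refine eq_one_of_pow_pPow (p := p) (a := a) ?_
    rw [← (upper_pow_apply ρ (hup ρ) (p ^ a)).2.2, hM, conjBy_apply, h1, mul_one, Units.inv_mul]
    rfl
  obtain ⟨a, ha0, ha⟩ := Engine.exists_zeta_image D τ
  set ω := algebraMap (ZMod p) k a with hω
  have hA : M τ 0 0 * M τ 1 1 = ω := by
    have h := hdet D.zeta D.zeta_spec τ a.val ha
    rw [← det_conjBy r P, ← hM, Matrix.det_fin_two, hup τ, mul_zero, sub_zero] at h
    rw [h, hω, ← map_natCast (algebraMap (ZMod p) k), ZMod.natCast_zmod_val]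
  have hω0 : ω ≠ 0 := (_root_.map_ne_zero _).2 ha0
  -- the eigenvalue on the line lies in the prime field
  set c := M τ 0 0 with hc
  have hcp : c ^ p = c := by
    obtain ⟨ρ₀, hρ₀, hconj⟩ := exists_conj_eq_pow D hτ hg
    have h := congrArg (fun σ => M σ 0 0) (show g * τ = τ ^ p * ρ₀ * g by
      rw [← hconj, inv_mul_cancel_right])
    simp only [(upper_mul_apply _ _ (hup _) (hup _)).2.1, (upper_pow_apply τ (hup τ) p).2.1,
      hK0 ρ₀ hρ₀, mul_one] at h
    have hg0 : M g 0 0 ≠ 0 := fun h0 => by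
      have h1 := (upper_mul_apply (M := M) g g⁻¹ (hup _) (hup _)).2.1
      rw [mul_inv_cancel, map_one, h0, zero_mul, Matrix.one_apply_eq] at h1
      exact one_ne_zero h1
    exact mul_right_cancel₀ hg0 (h.symm.trans (mul_comm _ _))
  have hc0 : c ≠ 0 := fun h => hω0 (by rw [← hA, h, zero_mul])
  have hvτ : r τ *ᵥ v = c • v := by
    obtain ⟨s, hs⟩ := hstable τ
    rw [hc, (conjBy_col_zero r P hP hs).1]
    exact hs
  have hKv : ∀ ρ, D.FixK ρ → ∃ b : k, r ρ *ᵥ v = b • v := fun ρ _ => hstable ρ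
  have hc_omega : c = ω := by
    refine (eigen_prime T D hW hτ hprim ha hv0 hvτ hKv hc0 hcp).resolve_left fun hc1 => hne ?_
    -- a split extension would be trivial on `Gal(C/K)`
    have hω1 : ω ≠ 1 := fun h => by
      have ha1 : a = 1 := (algebraMap (ZMod p) k).injective (h.trans (map_one _).symm)
      have hη := Engine.isPrimitiveRoot_res_xi D hprim
      have ht := Engine.res_xi_pow_top D hτ ha
      rw [ha1, ← map_natCast (algebraMap (ZMod p) (Engine.Res p)), ZMod.natCast_zmod_val,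
        map_one] at ht
      exact hη.pow_ne_one_of_pos_of_lt (Engine.top_pos D).ne' (Engine.top_lt D hp2) ht
    have h11 : M τ 1 1 = ω := by rw [← hA, hc1, one_mul]
    set Q : Matrix (Fin 2) (Fin 2) k := ↑P⁻¹ with hQ
    let N : AddSubgroup (RepMod r) :=
      { carrier := {m | (Q *ᵥ RepMod.coords r m) 1 = 0}
        zero_mem' := by
          show (Q *ᵥ (0 : Fin 2 → k)) 1 = 0
          rw [Matrix.mulVec_zero]
          rfl
        add_mem' := fun {x y} hx hy => by
          show (Q *ᵥ (RepMod.coords r x + RepMod.coords r y)) 1 = 0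
          rw [Matrix.mulVec_add, Pi.add_apply, hx, hy, add_zero]
        neg_mem' := fun {x} hx => by
          show (Q *ᵥ (-RepMod.coords r x)) 1 = 0
          rw [Matrix.mulVec_neg, Pi.neg_apply, hx, neg_zero] }
    have hcoord : ∀ σ m, Q *ᵥ RepMod.coords r (σ • m) = M σ *ᵥ (Q *ᵥ RepMod.coords r m) := by
      intro σ m
      rw [RepMod.coords_smul, hM, conjBy_apply, Matrix.mulVec_mulVec, Matrix.mulVec_mulVec, hQ,
        mul_assoc, Units.mul_inv, mul_one]
    have hinj : ∀ x y : RepMod r, Q *ᵥ RepMod.coords r x = Q *ᵥ RepMod.coords r y → x = y :=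
      fun x y h => by
        have h' := congrArg (fun z => (P : Matrix (Fin 2) (Fin 2) k) *ᵥ z) h
        simp only [Matrix.mulVec_mulVec, hQ, Units.mul_inv, Matrix.one_mulVec] at h'
        exact h'
    have hfixN : ∀ σ, M σ 0 0 = 1 → ∀ n ∈ N, σ • n = n := fun σ h00 n hn => hinj _ _ (by
      have hn' : (Q *ᵥ RepMod.coords r n) 1 = 0 := hn
      rw [hcoord]
      funext i
      fin_cases i
      · simp only [Fin.zero_eta, Matrix.mulVec, dotProduct, Fin.sum_univ_two] at hn' ⊢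
        rw [hn', h00, mul_zero, add_zero, one_mul]
      · simp only [Fin.mk_one, Matrix.mulVec, dotProduct, Fin.sum_univ_two] at hn' ⊢
        rw [hn', hup, mul_zero, zero_mul, add_zero])
    have htriv : ∀ m : RepMod r, ρ₁ • m = m := fun m =>
      T.fixK_trivial_of_split hp2 D hW hτ hprim N (hfixN τ hc1) (fun ρ hρ => hfixN ρ (hK0 ρ hρ))
        (fun ρ hρ m => by
          show (Q *ᵥ (RepMod.coords r (ρ • m) - RepMod.coords r m)) 1 = 0
          rw [Matrix.mulVec_sub, Pi.sub_apply, hcoord]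
          simp [Matrix.mulVec, dotProduct, Fin.sum_univ_two, hup ρ, hK1 ρ hρ])
        (fun m => by
          refine ⟨RepMod.mk r ((P : Matrix (Fin 2) (Fin 2) k) *ᵥ
            ![0, (Q *ᵥ RepMod.coords r m) 1 / (ω - 1)]), ?_⟩
          show (Q *ᵥ (RepMod.coords r m - (RepMod.coords r (τ • _) - RepMod.coords r _))) 1 = 0
          rw [Matrix.mulVec_sub, Matrix.mulVec_sub, hcoord]
          show (Q *ᵥ RepMod.coords r m) 1 -
            ((M τ *ᵥ (Q *ᵥ ((P : Matrix (Fin 2) (Fin 2) k) *ᵥ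
              ![0, (Q *ᵥ RepMod.coords r m) 1 / (ω - 1)]))) 1 -
              (Q *ᵥ ((P : Matrix (Fin 2) (Fin 2) k) *ᵥ
              ![0, (Q *ᵥ RepMod.coords r m) 1 / (ω - 1)])) 1) = 0
          rw [Matrix.mulVec_mulVec _ Q, hQ, Units.inv_mul, Matrix.one_mulVec]
          generalize ((↑P⁻¹ : Matrix (Fin 2) (Fin 2) k) *ᵥ RepMod.coords r m) 1 = y
          simp [Matrix.mulVec, dotProduct, Fin.sum_univ_two, h11]
          field_simp [sub_ne_zero.2 hω1]
          ring) hρ₁ m
    refine Matrix.ext_of_mulVec_single fun i => ?_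
    rw [Matrix.one_mulVec]
    exact htriv (RepMod.mk r (Pi.single i 1))
  refine ⟨P, ordinary_of_line D hτ hprim hg hdet P (hup g) (hup τ) (fun ρ _ => hup ρ) ?_ hK1⟩
  exact mul_left_cancel₀ hc0 (by rw [hA, mul_one, hc_omega])

end Shape

variable [CharP k p]

open _root_.Fermat.Agent.FlatLocal.Shape in
/-- A two-dimensional representation with a local model and determinant `ω` is ordinary or
supersingular, after a change of basis. -/
theorem exists_conj_shape [Finite k] (hp2 : p ≠ 2) (r : Gp p →* Matrix (Fin 2) (Fin 2) k)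
    (hm : HasLocalModel p (RepMod r))
    (hsplit : ∀ σ, ∃ c : k, (r σ - c • (1 : Matrix (Fin 2) (Fin 2) k)).det = 0)
    (hdet : ∀ z : PadicAlgCl p, IsPrimitiveRoot z p → ∀ σ : Gp p,
      ∀ a : ℕ, σ z = z ^ a → (r σ).det = (a : k)) :
    ∃ P : (Matrix (Fin 2) (Fin 2) k)ˣ,
      IsOrdinaryShape (conjBy P r) ∨ ∃ u, IsSupersingularShape (conjBy P r) u := by
  let _ : Algebra (ZMod p) k := ZMod.algebra k p
  obtain ⟨T⟩ := RepMod.exists_model r (CharP.cast_eq_zero k p) hm
  obtain ⟨e, D, ⟨E, he⟩, -, -, hW⟩ := T.exists_bigField hp2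
  obtain ⟨τ, hτ, hprim⟩ := D.exists_inertia_generator
  obtain ⟨g, hg⟩ := TameField.exists_frobenius (p := p)
  by_cases htriv : ∀ ρ, D.FixK ρ → r ρ = 1
  · exact exists_shape_of_trivial hp2 T D he hW hsplit hdet hτ hprim hg htriv
  · push Not at htriv
    obtain ⟨ρ₁, hρ₁, hne⟩ := htriv
    obtain ⟨P, hP⟩ := exists_shape_of_nontrivial hp2 T D hW hdet hτ hprim hg hρ₁ hne
    exact ⟨P, Or.inl hP⟩

end Fermat.Agent.FlatLocal
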