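import Fermat.Agent.FlatLocal.Bound.Common

/-!
# The tangent bound in the supersingular case

`r` is trivial on `Gal(C/K)`, `K` of tame degree `p² - 1`, and inertia acts by the two
fundamental characters of level two: coboundaries and tangent cocycles span at most four
dimensions.
-/

set_option autoImplicit false

noncomputable section

namespace Fermat.Agent.FlatLocal

variable {p : ℕ} [Fact p.Prime] {e : ℕ}
variable {k : Type} [Field k]

namespace Bound

/-- The effect on `ϖ` of a conjugate of an inertia element. -/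
theorem conj_varpi (D : TameField p e) {τ g : Gp p} (hτ : IsInertia τ) {n : ℕ}
    (hn : g (Engine.xi D τ) = Engine.xi D τ ^ n) :
    (g * τ * g⁻¹) D.ϖ = Engine.xi D τ ^ n * D.ϖ := by
  set η := Engine.xi D g⁻¹
  have hϖ : g⁻¹ D.ϖ = η * D.ϖ := (div_mul_cancel₀ _ (Engine.varpi_ne_zero D)).symm
  have hτϖ : τ D.ϖ = Engine.xi D τ * D.ϖ := (div_mul_cancel₀ _ (Engine.varpi_ne_zero D)).symm
  have hτη : τ η = η := D.inertia_fix_W hτ (D.roots_mem_W (Engine.xi_pow D g⁻¹))
  have hback : g (η * D.ϖ) = D.ϖ := by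
    rw [← hϖ, ← AlgEquiv.mul_apply, mul_inv_cancel, AlgEquiv.one_apply]
  rw [AlgEquiv.mul_apply, AlgEquiv.mul_apply, hϖ, map_mul τ, hτη, hτϖ, mul_left_comm, map_mul g,
    hback, hn]

theorem pow_varpi (D : TameField p e) {τ : Gp p} (hτ : IsInertia τ) (n : ℕ) :
    (τ ^ n) D.ϖ = Engine.xi D τ ^ n * D.ϖ := by
  induction n with
  | zero => simp
  | succ n ih =>
    rw [pow_succ', AlgEquiv.mul_apply, ih, map_mul, map_pow,
      D.inertia_fix_W hτ (D.roots_mem_W (Engine.xi_pow D τ)),
      show τ D.ϖ = Engine.xi D τ * D.ϖ from (div_mul_cancel₀ _ (Engine.varpi_ne_zero D)).symm]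
    ring

theorem pow_fix {τ : Gp p} {x : PadicAlgCl p} (h : τ x = x) (n : ℕ) : (τ ^ n) x = x := by
  induction n with
  | zero => rw [pow_zero, AlgEquiv.one_apply]
  | succ n ih => rw [pow_succ, AlgEquiv.mul_apply, h, ih]

/-- Elements fixing `W` with the same effect on `ϖ` have the same image. -/
theorem r_eq_of_varpi {D : TameField p e} {r : Gp p →* Matrix (Fin 2) (Fin 2) k}
    (hK : ∀ σ : Gp p, D.FixK σ → r σ = 1) {σ σ' : Gp p} (hσ : ∀ x ∈ D.W, σ x = x)
    (hσ' : ∀ x ∈ D.W, σ' x = x) (h : σ D.ϖ = σ' D.ϖ) : r σ = r σ' := by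
  have hinv : ∀ y, σ' y = σ y → (σ'⁻¹ * σ) y = y := fun y hy => by
    rw [AlgEquiv.mul_apply, ← hy, ← AlgEquiv.mul_apply, inv_mul_cancel, AlgEquiv.one_apply]
  have h1 := hK _ (fixK_of_fixW (σ := σ'⁻¹ * σ) (fun x hx => hinv x (by rw [hσ x hx, hσ' x hx]))
    (hinv _ h.symm))
  rw [← mul_inv_cancel_left σ' σ, map_mul, h1, mul_one]

theorem finrank_cobSpace_le (r : Gp p →* Matrix (Fin 2) (Fin 2) k) :
    FiniteDimensional k (cobSpace r) ∧ Module.finrank k (cobSpace r) ≤ 3 := by
  refine ⟨Module.Finite.map _ _, (Submodule.finrank_map_le _ _).trans ?_⟩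
  have hne : tr0 k ≠ ⊤ := fun h => by
    have h1 : (!![1, 0; 0, 0] : Matrix (Fin 2) (Fin 2) k) ∈ tr0 k := h ▸ Submodule.mem_top
    rw [tr0, LinearMap.mem_ker] at h1
    simp [Matrix.trace_fin_two] at h1
  have h := Submodule.finrank_lt hne
  rw [Module.finrank_matrix, Fintype.card_fin, Module.finrank_self] at h
  omega

end Bound

variable [CharP k p]

open _root_.Fermat.Agent.FlatLocal.Bound in
theorem finrank_span_supersingular_le [Finite k] (hp2 : p ≠ 2) (D : TameField p e)
    (he : e = p ^ 2 - 1) (hD : HasPointProperty D) (r : Gp p →* Matrix (Fin 2) (Fin 2) k)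
    (hK : ∀ σ : Gp p, D.FixK σ → r σ = 1)
    (u : Gp p → k)
    (hu : ∀ σ : Gp p, IsInertia σ → ∀ P : Polynomial ℤ,
      ‖Polynomial.aeval (σ D.ϖ / D.ϖ) P‖ < 1 → Polynomial.aeval (u σ) P = 0)
    (hI : ∀ σ : Gp p, IsInertia σ → r σ = !![u σ, 0; 0, u σ ^ p]) :
    FiniteDimensional k ↥(Submodule.span k {Z | IsTangent D r Z} ⊔ cobSpace r) ∧
      Module.finrank k ↥(Submodule.span k {Z | IsTangent D r Z} ⊔ cobSpace r) ≤ 4 := by
  have hp := (Fact.out : p.Prime)
  have h3 : 3 ≤ p := by have := hp.two_le; omega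
  have hsq : 3 * p ≤ p ^ 2 := by rw [sq]; exact Nat.mul_le_mul_right p h3
  let _ : Algebra (ZMod p) k := ZMod.algebra k p
  have hF : ∀ σ : Gp p, (∀ x ∈ D.F, σ x = x) → r σ = 1 := fun σ h =>
    hK σ fun x hx => h x (D.K_le hx)
  obtain ⟨τ, hτ, hprim⟩ := D.exists_inertia_generator
  obtain ⟨g, hg⟩ := TameField.exists_frobenius (p := p)
  have hiff := Engine.aeval_eq_zero_iff D (hu τ hτ)
  have hue : ∀ σ, IsInertia σ → u σ ^ e = 1 := fun σ hσ => by
    have h := hu σ hσ (Polynomial.X ^ e - 1) (by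
      simp [show (σ D.ϖ / D.ϖ) ^ e = 1 from Engine.xi_pow D σ])
    simpa [sub_eq_zero] using h
  have hu0 : ∀ σ, IsInertia σ → u σ ≠ 0 := fun σ hσ h => by
    have := hue σ hσ
    rw [h, zero_pow D.e_pos.ne'] at this
    exact zero_ne_one this
  have hup : u τ ≠ u τ ^ p := fun h => by
    have h1 := (hiff (Polynomial.X - Polynomial.X ^ p)).1 (by simp [← h])
    rw [map_sub, Polynomial.aeval_X, map_pow, Polynomial.aeval_X, sub_eq_zero] at h1
    have := (Engine.isPrimitiveRoot_res_xi D hprim).pow_inj (i := 1) (j := p) (by omega) (by omega)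
      (by rwa [pow_one])
    omega
  have hξW : Engine.xi D τ ^ e = 1 := Engine.xi_pow D τ
  have hτW : ∀ x ∈ D.W, τ x = x := fun x hx => D.inertia_fix_W hτ hx
  -- elements fixing `μ_{p² - 1}` act diagonally
  have hdiag : ∀ h : Gp p, FixesUnity 2 h → r h 0 1 = 0 ∧ r h 1 0 = 0 := by
    intro h hh
    have hc : r (h * τ * h⁻¹) = r τ := by
      refine r_eq_of_varpi hK (conj_fixW hτ h) hτW ?_
      rw [conj_varpi D hτ (n := 1) (by rw [pow_one]; exact hh _ (he ▸ hξW)), ← pow_varpi D hτ,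
        pow_one]
    have hcomm : r h * r τ = r τ * r h := by
      conv_rhs => rw [← hc, ← map_mul, inv_mul_cancel_right, map_mul]
    rw [hI τ hτ] at hcomm
    have h01 := congrFun (congrFun hcomm 0) 1
    have h10 := congrFun (congrFun hcomm 1) 0
    simp only [Matrix.mul_apply, Fin.sum_univ_two, Matrix.of_apply, Matrix.cons_val',
      Matrix.cons_val_zero, Matrix.cons_val_one, Matrix.empty_val', Matrix.cons_val_fin_one,
      mul_zero, zero_mul, add_zero, zero_add] at h01 h10
    constructor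
    · by_contra hne
      exact hup (mul_left_cancel₀ hne (h01.trans (mul_comm _ _))).symm
    · by_contra hne
      exact hup (mul_left_cancel₀ hne (h10.trans (mul_comm _ _)))
  set χ : Gp p → k := fun σ => r σ 0 0 * (r σ 1 1)⁻¹ with hχdef
  have hχI : ∀ σ, IsInertia σ → χ σ = u σ ^ (p * (p - 1)) := fun σ hσ => by
    have h1 : u σ = u σ ^ (p * (p - 1)) * u σ ^ p := by
      rw [← pow_add]
      conv_lhs => rw [← one_mul (u σ), ← hue σ hσ, ← pow_succ]
      congr 1
      rw [he, Nat.mul_sub, mul_one, ← sq]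
      omega
    rw [hχdef]
    simp only [hI σ hσ, Matrix.of_apply, Matrix.cons_val', Matrix.cons_val_zero,
      Matrix.cons_val_one, Matrix.empty_val', Matrix.cons_val_fin_one]
    conv_lhs => arg 1; rw [h1]
    rw [mul_assoc, mul_inv_cancel₀ (pow_ne_zero _ (hu0 σ hσ)), mul_one]
  -- the diagonal of a tangent cocycle vanishes on `Gal(C/K)`
  have hconj : ∀ {Z}, IsTangent D r Z → ∀ (h σ : Gp p), D.FixK σ →
      Z (h * σ * h⁻¹) = adMat r h (Z σ) := fun {Z} hZ h σ hσ => by
    rw [cocycle_conj hZ, adMat_of_eq_one r (hK _ (Engine.fixK_conj D h hσ)), add_sub_cancel_left]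
  have hhom : ∀ {Z}, IsTangent D r Z → ∀ σ ρ, D.FixK σ → D.FixK ρ → Z (σ * ρ) = Z σ + Z ρ :=
    fun {Z} hZ σ ρ hσ _ => by rw [cocycle' hZ, adMat_of_eq_one r (hK σ hσ)]
  have hentry : ∀ (h : Gp p), FixesUnity 2 h → ∀ X : Matrix (Fin 2) (Fin 2) k,
      adMat r h X 0 0 = X 0 0 ∧ adMat r h X 0 1 = χ h * X 0 1 := by
    intro h hh X
    obtain ⟨a1, a2⟩ := hdiag h hh
    have hh' : FixesUnity 2 h⁻¹ := fun z hz => by
      conv_lhs => rw [← hh z hz]
      rw [← AlgEquiv.mul_apply, inv_mul_cancel, AlgEquiv.one_apply]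
    obtain ⟨b1, b2⟩ := hdiag h⁻¹ hh'
    have h00 := congrFun (congrFun (r_mul_inv r h) 0) 0
    have h11 := congrFun (congrFun (r_mul_inv r h) 1) 1
    simp only [Matrix.mul_apply, Fin.sum_univ_two, a1, a2, zero_mul, add_zero, zero_add,
      Matrix.one_apply_eq] at h00 h11
    simp only [adMat_apply, Matrix.mul_apply, Fin.sum_univ_two, a1, b1, b2, zero_mul, mul_zero,
      add_zero, zero_add, hχdef]
    constructor
    · rw [mul_right_comm, h00, one_mul]
    · rw [eq_inv_of_mul_eq_one_right h11]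
      ring
  have hd00 : ∀ {Z}, IsTangent D r Z → ∀ σ, D.FixK σ → Z σ 0 0 = 0 := by
    intro Z hZ σ hσ
    have ha : IsEigenHom D 2 (fun _ => 1) (fun σ => Z σ 0 0) :=
      ⟨fun σ ρ hσ hρ => by rw [hhom hZ σ ρ hσ hρ, Matrix.add_apply],
        fun h hh σ hσ => by rw [hconj hZ h σ hσ, (hentry h hh _).1, one_mul]⟩
    obtain ⟨σ', hI', -, hZ', hK'⟩ := exists_inertia_same (fixW_of_fixK hσ) hF
    rw [← hZ' Z hZ]
    exact eq_zero_of_allowed_of_trivial hp2 (Or.inr rfl) D he (fun _ _ => rfl) ha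
      (isAllowed_of_hom hp2 D hD _ ha.map_mul fun ρ hρ => by
        rw [hZ.eq_zero_of_fix ρ hρ]; rfl) (hK' hσ) hI'
  -- Frobenius exchanges the two lines
  have hgc : r (g * τ * g⁻¹) = !![u τ ^ p, 0; 0, u τ] := by
    have h1 : r (g * τ * g⁻¹) = r (τ ^ p) := by
      refine r_eq_of_varpi hK (conj_fixW hτ g) (fun x hx => ?_) ?_
      · exact pow_fix (hτW x hx) p
      · rw [conj_varpi D hτ (hg _ _ D.not_dvd hξW), pow_varpi D hτ]
    have hpp : (u τ ^ p) ^ p = u τ := by
      rw [← pow_mul, ← sq, show p ^ 2 = e + 1 by omega, pow_succ, hue τ hτ, one_mul]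
    have hpow : ∀ n : ℕ, r (τ ^ n) = !![u τ ^ n, 0; 0, (u τ ^ p) ^ n] := fun n => by
      induction n with
      | zero =>
        rw [pow_zero, map_one]
        ext i j
        fin_cases i <;> fin_cases j <;> simp
      | succ n ih =>
        rw [pow_succ, map_mul, ih, hI τ hτ]
        ext i j
        fin_cases i <;> fin_cases j <;> simp [Matrix.mul_apply, Fin.sum_univ_two, pow_succ]
    rw [h1, hpow, hpp]
  have hg00 : r g 0 0 = 0 ∧ r g 1 1 = 0 := by
    have hcomm : r g * r τ = r (g * τ * g⁻¹) * r g := by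
      rw [← map_mul, ← map_mul, inv_mul_cancel_right]
    rw [hgc, hI τ hτ] at hcomm
    have a := congrFun (congrFun hcomm 0) 0
    have b := congrFun (congrFun hcomm 1) 1
    simp only [Matrix.mul_apply, Fin.sum_univ_two, Matrix.of_apply, Matrix.cons_val',
      Matrix.cons_val_zero, Matrix.cons_val_one, Matrix.empty_val', Matrix.cons_val_fin_one,
      mul_zero, zero_mul, add_zero, zero_add] at a b
    constructor
    · by_contra hne
      exact hup (mul_left_cancel₀ hne (a.trans (mul_comm _ _)))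
    · by_contra hne
      exact hup (mul_left_cancel₀ hne (b.trans (mul_comm _ _))).symm
  obtain ⟨hC1, hC2⟩ := finrank_cobSpace_le r
  have hcob : cobSpace r ≤ tangentSpace D r := by
    rintro _ ⟨X, hX, rfl⟩
    exact isTangent_adCob hF hX
  obtain ⟨h1, h2⟩ := finrank_le_succ (W := cobSpace r) (S := tangentSpace D r) fun Y hY Z hZ => by
    have hb : ∀ {Z}, IsTangent D r Z →
        IsEigenHom D 2 χ (fun σ => Z σ 0 1) ∧ IsAllowed D (fun σ => Z σ 0 1) := fun {Z} hZ =>
      have hm : ∀ σ ρ, D.FixK σ → D.FixK ρ → Z (σ * ρ) 0 1 = Z σ 0 1 + Z ρ 0 1 := fun σ ρ hσ hρ => by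
        rw [hhom hZ σ ρ hσ hρ, Matrix.add_apply]
      ⟨⟨hm, fun h hh σ hσ => by rw [hconj hZ h σ hσ, (hentry h hh _).2]⟩,
        isAllowed_of_hom hp2 D hD _ hm fun ρ hρ => by rw [hZ.eq_zero_of_fix ρ hρ]; rfl⟩
    obtain ⟨a, b, hab, h⟩ := exists_dependent_of_allowed_two hp2 D he hu hχI
      (hb hY).1 (hb hY).2 (hb hZ).1 (hb hZ).2
    refine ⟨a, b, hab, ?_⟩
    set U := a • Y + b • Z with hU
    have hUt : IsTangent D r U :=
      (tangentSpace D r).add_mem (Submodule.smul_mem _ a hY) (Submodule.smul_mem _ b hZ)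
    have hU01 : ∀ σ, D.FixK σ → U σ 0 1 = 0 := fun σ hσ => by simpa [hU] using h σ hσ
    have hUK : ∀ σ, D.FixK σ → U σ = 0 := by
      intro σ hσ
      have hρ : D.FixK (g⁻¹ * σ * g) := by simpa using Engine.fixK_conj D g⁻¹ hσ
      have h10 : U σ 1 0 = 0 := by
        have hc := hconj hUt g _ hρ
        rw [show g * (g⁻¹ * σ * g) * g⁻¹ = σ by group] at hc
        rw [hc]
        simp [adMat_apply, Matrix.mul_apply, Fin.sum_univ_two, hg00.2, hd00 hUt _ hρ, hU01 _ hρ]
      have h11 := hUt.trace_eq_zero σ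
      rw [Matrix.trace_fin_two, hd00 hUt σ hσ, zero_add] at h11
      ext i j
      fin_cases i <;> fin_cases j <;> simp [hd00 hUt σ hσ, hU01 σ hσ, h10, h11]
    -- normalise at `τ`
    have hek : (e : k) ≠ 0 := fun h0 => D.not_dvd ((CharP.cast_eq_zero_iff k p e).1 h0)
    have hτe : U (τ ^ e) = 0 := hUK _ (fixK_of_fixW
      (fun x hx => pow_fix (hτW x hx) e)
      (by rw [pow_varpi D hτ, hξW, one_mul]))
    set X := (e : k)⁻¹ • ∑ i ∈ Finset.range e, U (τ ^ i) with hX
    have hXtr : X.trace = 0 := by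
      simp [hX, Matrix.trace_smul, Matrix.trace_sum, hUt.trace_eq_zero]
    have hXτ : U τ = X - adMat r τ X := by
      have hsum : ∑ i ∈ Finset.range e, U (τ ^ (i + 1)) =
          (e : k) • U τ + adMat r τ (∑ i ∈ Finset.range e, U (τ ^ i)) := by
        rw [map_sum]
        simp only [pow_succ', cocycle' hUt, Finset.sum_add_distrib, Finset.sum_const,
          Finset.card_range, Nat.cast_smul_eq_nsmul]
      have hshift : ∑ i ∈ Finset.range e, U (τ ^ (i + 1)) = ∑ i ∈ Finset.range e, U (τ ^ i) := by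
        have h1 := Finset.sum_range_succ' (fun i => U (τ ^ i)) e
        rw [Finset.sum_range_succ, hτe, add_zero, pow_zero, cocycle_one hUt, add_zero] at h1
        exact h1.symm
      rw [hshift] at hsum
      rw [hX, map_smul, ← smul_sub]
      conv_rhs => arg 2; arg 1; rw [hsum]
      rw [add_sub_cancel_right, smul_smul, inv_mul_cancel₀ hek, one_smul]
    set V := U - adCob r X with hV
    have hVt : IsTangent D r V := (tangentSpace D r).sub_mem hUt (isTangent_adCob hF hXtr)
    have hVτ : V τ = 0 := by rw [hV, Pi.sub_apply, adCob_apply, ← hXτ, sub_self]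
    have hVK : ∀ σ, D.FixK σ → V σ = 0 := fun σ hσ => by
      rw [hV, Pi.sub_apply, hUK σ hσ, adCob_apply, adMat_of_eq_one r (hK σ hσ), sub_self, sub_self]
    -- normalise at Frobenius
    have hVg : V g * r (g * τ * g⁻¹) = r (g * τ * g⁻¹) * V g := by
      have hc := cocycle_conj hVt g τ
      rw [eq_zero_of_fixW hVt hτ hprim hVK hVτ (conj_fixW hτ g), hVτ, map_zero, add_zero,
        eq_comm, sub_eq_zero] at hc
      conv_lhs => rw [hc, adMat_apply, mul_assoc, r_inv_mul, mul_one]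
    rw [hgc] at hVg
    have hVg01 : V g 0 1 = 0 := by
      have h01 := congrFun (congrFun hVg 0) 1
      simp [Matrix.mul_apply, Fin.sum_univ_two] at h01
      by_contra hne
      exact hup (mul_left_cancel₀ hne (h01.trans (mul_comm _ _)))
    have hVg10 : V g 1 0 = 0 := by
      have h10 := congrFun (congrFun hVg 1) 0
      simp [Matrix.mul_apply, Fin.sum_univ_two] at h10
      by_contra hne
      exact hup (mul_left_cancel₀ hne (h10.trans (mul_comm _ _))).symm
    have h2k : (2 : k) ≠ 0 := by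
      rw [← Nat.cast_two, ne_eq, CharP.cast_eq_zero_iff k p]
      exact fun h => hp2 ((Nat.prime_dvd_prime_iff_eq hp Nat.prime_two).1 h)
    set X' : Matrix (Fin 2) (Fin 2) k := !![V g 0 0 / 2, 0; 0, -(V g 0 0 / 2)] with hX'
    have hX'tr : X'.trace = 0 := by simp [hX', Matrix.trace_fin_two]
    have hX'τ : adMat r τ X' = X' := by
      have hc : r τ * X' = X' * r τ := by
        rw [hI τ hτ, hX']
        ext i j
        fin_cases i <;> fin_cases j <;> simp [Matrix.mul_apply, Fin.sum_univ_two, mul_comm]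
      rw [adMat_apply, hc, mul_assoc, r_mul_inv, mul_one]
    have hX'g : adMat r g X' = -X' := by
      have hc : r g * X' = -X' * r g := by
        rw [hX']
        ext i j
        fin_cases i <;> fin_cases j <;>
          simp [Matrix.mul_apply, Fin.sum_univ_two, hg00.1, hg00.2, mul_comm]
      rw [adMat_apply, hc, mul_assoc, r_mul_inv, mul_one]
    set V' := V - adCob r X' with hV'
    have hV'0 : V' = 0 := by
      refine eq_zero_of_generators ((tangentSpace D r).sub_mem hVt (isTangent_adCob hF hX'tr))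
        hτ hprim hg (fun σ hσ => ?_) ?_ ?_
      · rw [hV', Pi.sub_apply, hVK σ hσ, adCob_apply, adMat_of_eq_one r (hK σ hσ), sub_self, sub_self]
      · rw [hV', Pi.sub_apply, hVτ, adCob_apply, hX'τ, sub_self, sub_self]
      · rw [hV', Pi.sub_apply, adCob_apply, hX'g, sub_neg_eq_add, sub_eq_zero]
        have h11 := hVt.trace_eq_zero g
        rw [Matrix.trace_fin_two, add_eq_zero_iff_neg_eq] at h11
        ext i j
        fin_cases i <;> fin_cases j <;>
          simp [hX', hVg01, hVg10, ← h11] <;> field_simp <;> ring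
    rw [hV', sub_eq_zero] at hV'0
    have hUeq : U = adCob r (X + X') := by
      rw [map_add, ← hV'0, hV, add_sub_cancel]
    rw [hUeq]
    exact ⟨X + X', (tr0 k).add_mem hXtr hX'tr, rfl⟩
  have hspan : Submodule.span k {Z | IsTangent D r Z} ⊔ cobSpace r = tangentSpace D r :=
    le_antisymm (sup_le (Submodule.span_le.2 fun Z hZ => hZ) hcob)
      (fun Z hZ => Submodule.mem_sup_left (Submodule.subset_span hZ))
  rw [hspan]
  exact ⟨h1, h2.trans (Nat.add_le_add_right hC2 1)⟩

end Fermat.Agent.FlatLocal
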