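import Fermat.Agent.FlatLocal.Bound.Defs
import Fermat.Agent.FlatLocal.Generation

/-!
# Tangent cocycles: formal identities
-/

set_option autoImplicit false

noncomputable section

namespace Fermat.Agent.FlatLocal.Bound

variable {p : ℕ} [Fact p.Prime] {e : ℕ}
variable {k : Type} [Field k]
variable (r : Gp p →* Matrix (Fin 2) (Fin 2) k)

/-- The adjoint action. -/
def adMat (σ : Gp p) : Matrix (Fin 2) (Fin 2) k →ₗ[k] Matrix (Fin 2) (Fin 2) k :=
  (LinearMap.mulRight k (r σ⁻¹)).comp (LinearMap.mulLeft k (r σ))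

theorem adMat_apply (σ : Gp p) (X : Matrix (Fin 2) (Fin 2) k) :
    adMat r σ X = r σ * X * r σ⁻¹ := rfl

theorem r_mul_inv (σ : Gp p) : r σ * r σ⁻¹ = 1 := by rw [← map_mul, mul_inv_cancel, map_one]

theorem r_inv_mul (σ : Gp p) : r σ⁻¹ * r σ = 1 := by rw [← map_mul, inv_mul_cancel, map_one]

theorem adMat_mul (σ τ : Gp p) (X : Matrix (Fin 2) (Fin 2) k) :
    adMat r (σ * τ) X = adMat r σ (adMat r τ X) := by
  simp only [adMat_apply, mul_inv_rev, map_mul, mul_assoc]

theorem adMat_of_eq_one {σ : Gp p} (h : r σ = 1) (X : Matrix (Fin 2) (Fin 2) k) :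
    adMat r σ X = X := by
  have h' : r σ⁻¹ = 1 := by simpa [h] using r_inv_mul r σ
  rw [adMat_apply, h, h', one_mul, mul_one]

theorem adCob_apply (X : Matrix (Fin 2) (Fin 2) k) (σ : Gp p) :
    adCob r X σ = X - adMat r σ X := rfl

theorem trace_adMat (σ : Gp p) (X : Matrix (Fin 2) (Fin 2) k) :
    (adMat r σ X).trace = X.trace := by
  rw [adMat_apply, Matrix.trace_mul_cycle, r_inv_mul, one_mul]

theorem r_congr {D : TameField p e} (hF : ∀ σ : Gp p, (∀ x ∈ D.F, σ x = x) → r σ = 1)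
    {σ τ : Gp p} (h : ∀ x ∈ D.F, σ x = τ x) : r σ = r τ := by
  have h1 : r (τ⁻¹ * σ) = 1 := hF _ fun x hx => by
    rw [AlgEquiv.mul_apply, h x hx, ← AlgEquiv.mul_apply, inv_mul_cancel, AlgEquiv.one_apply]
  rw [← mul_inv_cancel_left τ σ, map_mul, h1, mul_one]

variable {r} {D : TameField p e}

theorem isTangent_adCob (hF : ∀ σ : Gp p, (∀ x ∈ D.F, σ x = x) → r σ = 1)
    {X : Matrix (Fin 2) (Fin 2) k} (hX : X.trace = 0) : IsTangent D r (adCob r X) where
  trace_eq_zero σ := by rw [adCob_apply, Matrix.trace_sub, trace_adMat, hX, sub_zero]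
  cocycle σ τ := by
    rw [← adMat_apply r, adCob_apply, adCob_apply, adCob_apply, adMat_mul, map_sub]
    abel
  eq_zero_of_fix σ h := by rw [adCob_apply, adMat_of_eq_one r (hF σ h), sub_self]

/-- The space of tangent cocycles. -/
def tangentSpace (D : TameField p e) (r : Gp p →* Matrix (Fin 2) (Fin 2) k) : Submodule k (Gp p → Matrix (Fin 2) (Fin 2) k) where
  carrier := {Z | IsTangent D r Z}
  zero_mem' := ⟨fun _ => by simp, fun _ _ => by simp, fun _ _ => rfl⟩
  add_mem' {Y Z} hY hZ := ⟨fun σ => by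
      rw [Pi.add_apply, Matrix.trace_add, hY.trace_eq_zero, hZ.trace_eq_zero, add_zero],
    fun σ τ => by
      simp only [Pi.add_apply, hY.cocycle, hZ.cocycle, mul_add, add_mul]
      abel,
    fun σ h => by rw [Pi.add_apply, hY.eq_zero_of_fix σ h, hZ.eq_zero_of_fix σ h, add_zero]⟩
  smul_mem' c Z hZ := ⟨fun σ => by
      rw [Pi.smul_apply, Matrix.trace_smul, hZ.trace_eq_zero, smul_zero],
    fun σ τ => by
      simp only [Pi.smul_apply, hZ.cocycle, Matrix.mul_smul, Matrix.smul_mul, smul_add],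
    fun σ h => by rw [Pi.smul_apply, hZ.eq_zero_of_fix σ h, smul_zero]⟩

theorem mem_tangentSpace {Z : Gp p → Matrix (Fin 2) (Fin 2) k} :
    Z ∈ tangentSpace D r ↔ IsTangent D r Z := Iff.rfl

variable {Z : Gp p → Matrix (Fin 2) (Fin 2) k}

theorem cocycle' (hZ : IsTangent D r Z) (σ τ : Gp p) : Z (σ * τ) = Z σ + adMat r σ (Z τ) :=
  hZ.cocycle σ τ

theorem cocycle_congr (hZ : IsTangent D r Z) {σ τ : Gp p} (h : ∀ x ∈ D.F, σ x = τ x) :
    Z σ = Z τ := by
  have h1 : Z (τ⁻¹ * σ) = 0 := hZ.eq_zero_of_fix _ fun x hx => by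
    rw [AlgEquiv.mul_apply, h x hx, ← AlgEquiv.mul_apply, inv_mul_cancel, AlgEquiv.one_apply]
  rw [← mul_inv_cancel_left τ σ, cocycle' hZ, h1, map_zero, add_zero]

theorem cocycle_one (hZ : IsTangent D r Z) : Z 1 = 0 := hZ.eq_zero_of_fix 1 fun _ _ => rfl

theorem cocycle_conj (hZ : IsTangent D r Z) (g σ : Gp p) :
    Z (g * σ * g⁻¹) = Z g + adMat r g (Z σ) - adMat r (g * σ * g⁻¹) (Z g) := by
  have h := cocycle' hZ (g * σ * g⁻¹) g
  rw [inv_mul_cancel_right, cocycle' hZ g σ] at h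
  rw [h, add_sub_cancel_right]

theorem cocycle_pow_of_eq_zero (hZ : IsTangent D r Z) {σ : Gp p} (h : Z σ = 0) (n : ℕ) :
    Z (σ ^ n) = 0 := by
  induction n with
  | zero => simpa using cocycle_one hZ
  | succ n ih => rw [pow_succ, cocycle' hZ, ih, h, map_zero, add_zero]

theorem fixW_of_fixK {σ : Gp p} (h : D.FixK σ) : ∀ x ∈ D.W, σ x = x :=
  fun x hx => h x (D.W_le_K hx)

theorem fixK_of_fixW {σ : Gp p} (hW : ∀ x ∈ D.W, σ x = x) (hϖ : σ D.ϖ = D.ϖ) : D.FixK σ := by
  have hadj : IntermediateField.adjoin ℚ_[p] {D.ϖ} ≤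
      IntermediateField.fixedField (Subgroup.closure {σ}) :=
    IntermediateField.adjoin_simple_le_iff.2 fun g => Subgroup.closure_induction
      (p := fun g _ => g D.ϖ = D.ϖ) (fun g hg => by rw [Set.mem_singleton_iff.1 hg, hϖ]) rfl
      (fun a b _ _ ha hb => by rw [AlgEquiv.mul_apply, hb, ha])
      (fun a _ ha => by
        conv_lhs => rw [← ha]
        rw [← AlgEquiv.mul_apply, inv_mul_cancel, AlgEquiv.one_apply]) g.2
  have hW' : D.W ≤ IntermediateField.fixedField (Subgroup.closure {σ}) := fun x hx g =>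
    Subgroup.closure_induction
      (p := fun g _ => g x = x) (fun g hg => by rw [Set.mem_singleton_iff.1 hg, hW x hx]) rfl
      (fun a b _ _ ha hb => by rw [AlgEquiv.mul_apply, hb, ha])
      (fun a _ ha => by
        conv_lhs => rw [← ha]
        rw [← AlgEquiv.mul_apply, inv_mul_cancel, AlgEquiv.one_apply]) g.2
  exact fun x hx => (sup_le hW' hadj) hx ⟨σ, Subgroup.subset_closure rfl⟩

/-- An element fixing `W` can be replaced by inertia. -/
theorem exists_inertia_same {σ : Gp p} (hσ : ∀ x ∈ D.W, σ x = x)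
    (hF : ∀ σ : Gp p, (∀ x ∈ D.F, σ x = x) → r σ = 1) :
    ∃ σ' : Gp p, IsInertia σ' ∧ r σ' = r σ ∧
      (∀ Z : Gp p → Matrix (Fin 2) (Fin 2) k, IsTangent D r Z → Z σ' = Z σ) ∧
      (D.FixK σ → D.FixK σ') := by
  obtain ⟨σ', hI, h⟩ := D.exists_inertia_eq_on hσ
  exact ⟨σ', hI, r_congr r hF h, fun Z hZ => cocycle_congr hZ h,
    fun hK x hx => (h x (D.K_le hx)).trans (hK x hx)⟩

theorem eq_zero_of_fixW (hZ : IsTangent D r Z) {τ : Gp p} (hτ : IsInertia τ)
    (hprim : IsPrimitiveRoot (τ D.ϖ / D.ϖ) e) (h0 : ∀ σ, D.FixK σ → Z σ = 0) (hτ0 : Z τ = 0)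
    {σ : Gp p} (hσ : ∀ x ∈ D.W, σ x = x) : Z σ = 0 := by
  obtain ⟨i, hi⟩ := D.exists_pow_fixK hτ hprim hσ
  rw [← mul_inv_cancel_left (τ ^ i) σ, cocycle' hZ, cocycle_pow_of_eq_zero hZ hτ0, h0 _ hi,
    map_zero, add_zero]

theorem eq_zero_of_generators (hZ : IsTangent D r Z) {τ g : Gp p} (hτ : IsInertia τ)
    (hprim : IsPrimitiveRoot (τ D.ϖ / D.ϖ) e)
    (hg : ∀ (z : PadicAlgCl p) (N : ℕ), ¬ p ∣ N → z ^ N = 1 → g z = z ^ p)
    (h0 : ∀ σ, D.FixK σ → Z σ = 0) (hτ0 : Z τ = 0) (hg0 : Z g = 0) : Z = 0 := by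
  funext h
  obtain ⟨j, hj⟩ := D.exists_pow_fix_W hg h
  rw [← mul_inv_cancel_left (g ^ j) h, cocycle' hZ, cocycle_pow_of_eq_zero hZ hg0,
    eq_zero_of_fixW hZ hτ hprim h0 hτ0 hj, map_zero, add_zero]
  rfl

theorem conj_fixW {τ : Gp p} (hτ : IsInertia τ) (g : Gp p) :
    ∀ x ∈ D.W, (g * τ * g⁻¹) x = x :=
  fun _ hx => D.inertia_fix_W (TameField.inertia_conj hτ g) hx

theorem finrank_le_succ {E : Type} [AddCommGroup E] [Module k E] {S W : Submodule k E}
    [FiniteDimensional k W]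
    (h : ∀ x ∈ S, ∀ y ∈ S, ∃ a b : k, (a ≠ 0 ∨ b ≠ 0) ∧ a • x + b • y ∈ W) :
    FiniteDimensional k S ∧ Module.finrank k S ≤ Module.finrank k W + 1 := by
  by_cases hS : S ≤ W
  · have : FiniteDimensional k S := Submodule.finiteDimensional_of_le hS
    exact ⟨this, (Submodule.finrank_mono hS).trans (Nat.le_succ _)⟩
  obtain ⟨v, hv, hvW⟩ := Set.not_subset.1 hS
  have hle : S ≤ W ⊔ Submodule.span k {v} := by
    intro x hx
    obtain ⟨a, b, hab, hW⟩ := h x hx v hv
    have ha : a ≠ 0 := by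
      intro ha
      have hb : b ≠ 0 := hab.resolve_left (not_not_intro ha)
      rw [ha, zero_smul, zero_add] at hW
      exact hvW ((Submodule.smul_mem_iff W hb).1 hW)
    have hx' : x = a⁻¹ • (a • x + b • v) + (-(a⁻¹ * b)) • v := by
      rw [smul_add, smul_smul, inv_mul_cancel₀ ha, one_smul, smul_smul, neg_smul]
      abel
    rw [hx']
    exact Submodule.add_mem_sup (W.smul_mem _ hW)
      (Submodule.smul_mem _ _ (Submodule.mem_span_singleton_self v))
  have : FiniteDimensional k S := Submodule.finiteDimensional_of_le hle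
  refine ⟨this, (Submodule.finrank_mono hle).trans ?_⟩
  refine (Submodule.finrank_add_le_finrank_add_finrank W (Submodule.span k {v})).trans ?_
  exact Nat.add_le_add_left (finrank_span_singleton (fun h0 => hvW (by rw [h0]; exact W.zero_mem))).le _

theorem finrank_sup_singleton_le {E : Type} [AddCommGroup E] [Module k E] {S W : Submodule k E}
    [FiniteDimensional k W] {v : E} (h : S ≤ W ⊔ Submodule.span k {v}) :
    FiniteDimensional k S ∧ Module.finrank k S ≤ Module.finrank k W + 1 := by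
  have : FiniteDimensional k S := Submodule.finiteDimensional_of_le h
  refine ⟨this, (Submodule.finrank_mono h).trans ?_⟩
  refine (Submodule.finrank_add_le_finrank_add_finrank W (Submodule.span k {v})).trans ?_
  exact Nat.add_le_add_left ((finrank_span_le_card ({v} : Set E)).trans (by simp)) _

end Fermat.Agent.FlatLocal.Bound
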