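import Fermat.Agent.FlatLocal.Engine
import Mathlib.LinearAlgebra.Matrix.Trace
import Mathlib.LinearAlgebra.Matrix.Notation

/-!
# Tangent cochains on the local Galois group

`IsTangent D r Z`: `Z` is a trace-zero cocycle for the adjoint action of `r` which is trivial on
the automorphisms fixing `D.F`. Flatness enters only through `HasPointProperty D`.
-/

set_option autoImplicit false

noncomputable section

namespace Fermat.Agent.FlatLocal

variable {p : ℕ} [Fact p.Prime] {e : ℕ}
variable {k : Type} [Field k]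

/-- The coboundary `X ↦ (σ ↦ X - r σ X r σ⁻¹)`. -/
def adCob (r : Gp p →* Matrix (Fin 2) (Fin 2) k) :
    Matrix (Fin 2) (Fin 2) k →ₗ[k] (Gp p → Matrix (Fin 2) (Fin 2) k) where
  toFun X σ := X - r σ * X * r σ⁻¹
  map_add' X Y := by
    funext σ
    simp only [Pi.add_apply, mul_add, add_mul]
    abel
  map_smul' c X := by
    funext σ
    simp [smul_sub]

/-- The trace-zero matrices. -/
def tr0 (k : Type) [Field k] : Submodule k (Matrix (Fin 2) (Fin 2) k) :=
  LinearMap.ker (Matrix.traceLinearMap (Fin 2) k k)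

/-- The coboundaries of trace-zero matrices. -/
def cobSpace (r : Gp p →* Matrix (Fin 2) (Fin 2) k) :
    Submodule k (Gp p → Matrix (Fin 2) (Fin 2) k) :=
  (tr0 k).map (adCob r)

/-- A trace-zero adjoint cocycle which is trivial on the automorphisms fixing `D.F`. -/
structure IsTangent (D : TameField p e) (r : Gp p →* Matrix (Fin 2) (Fin 2) k)
    (Z : Gp p → Matrix (Fin 2) (Fin 2) k) : Prop where
  trace_eq_zero : ∀ σ, (Z σ).trace = 0
  cocycle : ∀ σ τ, Z (σ * τ) = Z σ + r σ * Z τ * r σ⁻¹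
  eq_zero_of_fix : ∀ σ : Gp p, (∀ x ∈ D.F, σ x = x) → Z σ = 0

/-- Up to a coboundary, `Z` is upper triangular with diagonal trivial on inertia. -/
def IsTriangularClass (r : Gp p →* Matrix (Fin 2) (Fin 2) k)
    (Z : Gp p → Matrix (Fin 2) (Fin 2) k) : Prop :=
  ∃ X ∈ tr0 k, ∀ σ : Gp p,
    (Z σ + adCob r X σ) 1 0 = 0 ∧ (IsInertia σ → (Z σ + adCob r X σ) 0 0 = 0)

end Fermat.Agent.FlatLocal
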