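import Fermat.Agent.FlatLocal.Wild
import Fermat.Agent.FlatLocal.FromFlat
import Fermat.Agent.FlatLocal.Bound.Defs
import Mathlib.LinearAlgebra.Matrix.ToLin
import Mathlib.RingTheory.DualNumber

/-!
# Modules of two-dimensional representations of the local Galois group, and their shapes
-/

set_option autoImplicit false

noncomputable section

open Matrix

namespace Fermat.Agent.FlatLocal

variable {p : ℕ} [Fact p.Prime]

section RepMod

variable {A : Type} [CommRing A]

/-- The module of a matrix representation. -/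
def RepMod (_r : Gp p →* Matrix (Fin 2) (Fin 2) A) : Type := Fin 2 → A

variable (r : Gp p →* Matrix (Fin 2) (Fin 2) A)

instance : AddCommGroup (RepMod r) := inferInstanceAs (AddCommGroup (Fin 2 → A))

instance : Module A (RepMod r) := inferInstanceAs (Module A (Fin 2 → A))

instance [Finite A] : Finite (RepMod r) := inferInstanceAs (Finite (Fin 2 → A))

instance : DistribMulAction (Gp p) (RepMod r) where
  smul σ v := (r σ *ᵥ v : Fin 2 → A)
  one_smul v := by
    show r 1 *ᵥ (v : Fin 2 → A) = v
    rw [map_one, Matrix.one_mulVec]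
  mul_smul σ τ v := by
    show r (σ * τ) *ᵥ (v : Fin 2 → A) = r σ *ᵥ (r τ *ᵥ v)
    rw [map_mul, Matrix.mulVec_mulVec]
  smul_zero σ := Matrix.mulVec_zero (r σ)
  smul_add σ v w := Matrix.mulVec_add (r σ) v w

/-- A vector as an element of the module. -/
def RepMod.mk (v : Fin 2 → A) : RepMod r := v

/-- The coordinates of an element of the module. -/
def RepMod.coords (m : RepMod r) : Fin 2 → A := m

theorem RepMod.coords_smul (σ : Gp p) (m : RepMod r) :
    RepMod.coords r (σ • m) = r σ *ᵥ RepMod.coords r m := rfl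

theorem RepMod.exponent (hp : (p : A) = 0) (m : RepMod r) : p • m = 0 := by
  funext i
  show p • RepMod.coords r m i = 0
  rw [nsmul_eq_mul, hp, zero_mul]

theorem RepMod.exists_model [Finite A] (hp : (p : A) = 0) (h : HasLocalModel p (RepMod r)) :
    Nonempty (Model p (RepMod r)) :=
  h.exists_model (RepMod.exponent r hp)

end RepMod

variable {k : Type} [Field k]

instance finite_dualNumber [Finite k] : Finite (DualNumber k) :=
  inferInstanceAs (Finite (k × k))

/-- Conjugation of a representation by an invertible matrix. -/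
def conjBy (P : (Matrix (Fin 2) (Fin 2) k)ˣ) (r : Gp p →* Matrix (Fin 2) (Fin 2) k) :
    Gp p →* Matrix (Fin 2) (Fin 2) k where
  toFun σ := (↑P⁻¹ : Matrix (Fin 2) (Fin 2) k) * r σ * ↑P
  map_one' := by rw [map_one, mul_one, Units.inv_mul]
  map_mul' σ τ := by simp only [map_mul, mul_assoc, Units.mul_inv_cancel_left]

/-- Upper triangular, `ω` on the line and trivial on the quotient on inertia. -/
structure IsOrdinaryShape (r : Gp p →* Matrix (Fin 2) (Fin 2) k) : Prop where
  upper : ∀ σ, r σ 1 0 = 0
  quot : ∀ σ, IsInertia σ → r σ 1 1 = 1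
  sub : ∀ z : PadicAlgCl p, IsPrimitiveRoot z p → ∀ σ : Gp p, IsInertia σ →
    ∀ a : ℕ, σ z = z ^ a → r σ 0 0 = (a : k)

/-- On inertia the two fundamental characters of level two. -/
structure IsSupersingularShape (r : Gp p →* Matrix (Fin 2) (Fin 2) k) (u : Gp p → k) : Prop where
  diag : ∀ σ, IsInertia σ → r σ = !![u σ, 0; 0, u σ ^ p]
  fundamental : ∀ σ : Gp p, IsInertia σ → ∀ ϖ : PadicAlgCl p,
    ϖ ^ (p ^ 2 - 1) = -(p : PadicAlgCl p) → ∀ Q : Polynomial ℤ,
      ‖Polynomial.aeval (σ ϖ / ϖ) Q‖ < 1 → Polynomial.aeval (u σ) Q = 0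

end Fermat.Agent.FlatLocal
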